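/-
Program DS (S48), package (C), row C2 — GENERIC LEVEL DATUM (helper17).

A *level datum* over an algebraically closed constant field `K ⊂ ℂ` (`K = ℚ̄` with `iotaBar`, or
`K = ℂ` with `id`) is what the S24 "A-side" needs in order to run for an arbitrary congruence
level: a subfield `F ⊂ K((q))`, a `K`-subalgebra `R ⊂ F` with `Frac R = F` consisting of
`q`-expansions of HOLOMORPHIC functions on `ℍ` (`toHol`), invariant under a finite index subgroup
`Γ ≤ SL(2,ℤ)`, SEPARATING the cosets of `Γ`, such that every `SL(2,ℤ)`-translate has an expansion in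
`exp(2πiτ/h)` with coefficients in `K`, and containing `j`.

All of `S24/{Conj (2nd half), Invariant, Degree, EmbCusp, EmbPoint}` is then redone ONCE for a level
datum (`Lv/{Invariant,Cusp,Degree,EmbCusp,EmbPoint}.lean`); the instances are built by the bridge
rows: `X₁(M)`, `X(Γ₁(M) ∩ Γ₀(p))`, over `ℚ̄` and over `ℂ` (and `X₀(N)` = the S24 objects).
-/
import Mathlib
import Fermat.Agent.S24.ADefs
import Fermat.Agent.S24.CuspExp

set_option autoImplicit false

noncomputable section

namespace Fermat.Agent.DS

open UpperHalfPlane ModularCurve Fermat.Agent.S24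
open scoped MatrixGroups Manifold ModularForm Real

/-- A level datum over the constant field `K` embedded into `ℂ` by `ι`. -/
structure DscLevel (K : Type) [Field K] [Algebra ℚ K] (ι : K →+* ℂ) : Type where
  /-- the group (containing `-1`: it is the stabiliser of functions on `ℍ`) -/
  Γ : Subgroup SL(2, ℤ)
  finiteIndex : Γ.FiniteIndex
  /-- a common width of all cusps -/
  h : ℕ
  h_ne : h ≠ 0
  /-- the function field, inside `K((q))` -/
  F : IntermediateField K (LaurentSeries K)
  /-- a subalgebra of expansions of holomorphic functions, with fraction field `F` -/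
  R : Subalgebra K F
  frac : IsFractionRing R F
  /-- `F` is generated over `K` by finitely many elements of `R` -/
  gens : Set F
  gens_finite : gens.Finite
  gens_sub : ∀ x ∈ gens, x ∈ R
  gens_top : IntermediateField.adjoin K gens = ⊤
  /-- the bridge -/
  toHol : R →+* HolRing
  hasCuspExp : ∀ x : R, HasCuspExp 1 (toHol x : ℍ → ℂ) (coeffMap ι ((x : F) : LaurentSeries K))
  /-- `j ∈ R` -/
  j_mem : ∃ y : R, ((y : F) : LaurentSeries K) = coeffEmb K jq
  /-- invariance -/
  inv : ∀ γ ∈ Γ, ∀ x : R, γ • toHol x = toHol x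
  /-- separation -/
  sep : ∀ γ : SL(2, ℤ), (∀ x : R, γ • toHol x = toHol x) → γ ∈ Γ
  /-- expansions of the conjugates -/
  conj : ∀ (g : SL(2, ℤ)) (x : R), ∃ S : LaurentSeries K,
    HasCuspExp h ((g • toHol x : HolRing) : ℍ → ℂ) (coeffMap ι S)

namespace DscLevel

variable {K : Type} [Field K] [Algebra ℚ K] {ι : K →+* ℂ} (L : DscLevel K ι)

instance instNeZeroH : NeZero L.h := ⟨L.h_ne⟩

instance instFiniteIndex : L.Γ.FiniteIndex := L.finiteIndex

instance instFiniteQuot : Finite (SL(2, ℤ) ⧸ L.Γ) := Subgroup.finite_quotient_of_finiteIndex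

/-- `j` as an element of `R`. -/
def jR : L.R := L.j_mem.choose

theorem coe_jR : (((L.jR : L.R) : L.F) : LaurentSeries K) = coeffEmb K jq := L.j_mem.choose_spec

/-- `j` as an element of `F`. -/
def jF : L.F := (L.jR : L.F)

theorem coe_jF : ((L.jF : L.F) : LaurentSeries K) = coeffEmb K jq := L.coe_jR

theorem jF_mem_R : L.jF ∈ L.R := L.jR.2

end DscLevel

end Fermat.Agent.DS
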