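/-
Program DS (S48), package (C), row C2 — generic level datum: series with coefficients in the image of
an algebraically closed field `K ⊂ ℂ`; the conjugates of `j(dτ)` have `K`-rational expansions.
(Generic versions of the first half of `S24/Conj.lean`: `QBar ↦ K`, `iotaBar ↦ ι`.)
-/
import Mathlib
import Fermat.Agent.S24.Conj
import Fermat.Agent.DS.C.Lv.Invariant

set_option autoImplicit false
set_option linter.unusedSectionVars false

noncomputable section

namespace Fermat.Agent.DS

open UpperHalfPlane ModularCurve Fermat.Agent.S24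
open scoped MatrixGroups Manifold ModularForm Real

variable {K : Type} [Field K] (ι : K →+* ℂ)

/-- A Laurent series over `ℂ` all of whose coefficients lie in `ι(K)` comes from a Laurent series
over `K`. -/
theorem dscl_exists_coeffMap_eq (T : LaurentSeries ℂ) (hT : ∀ m : ℤ, T.coeff m ∈ ι.range) :
    ∃ S : LaurentSeries K, coeffMap ι S = T := by
  choose c hc using hT
  have hsupp : Function.support c ⊆ T.support := by
    intro m hm
    rw [Function.mem_support] at hm
    rw [HahnSeries.mem_support]
    intro h0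
    apply hm
    apply ι.injective
    rw [hc m, h0, map_zero]
  refine ⟨⟨c, T.isPWO_support.mono hsupp⟩, ?_⟩
  ext m
  rw [coeffMap_coeff]
  exact hc m

/-- The image of an algebraically closed field in `ℂ` contains all algebraic numbers. -/
theorem dscl_mem_range_of_isAlgebraic [IsAlgClosed K] {z : ℂ} (hz : IsAlgebraic ℚ z) :
    z ∈ ι.range := by
  have : CharZero K := (RingHom.charZero_iff ι.injective).mpr inferInstance
  let _ : Algebra ℚ K := DivisionRing.toRatAlgebra
  have hint : IsIntegral ℚ z := hz.isIntegral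
  set p : Polynomial ℚ := minpoly ℚ z with hp
  have hp0 : p ≠ 0 := minpoly.ne_zero hint
  have hf : (p.map (algebraMap ℚ K)).Splits := IsAlgClosed.splits _
  have hf0 : p.map (algebraMap ℚ K) ≠ 0 :=
    (Polynomial.map_ne_zero_iff (algebraMap ℚ K).injective).mpr hp0
  refine hf.mem_range_of_isRoot hf0 ?_
  rw [Polynomial.map_map]
  have hcomp : ι.comp (algebraMap ℚ K) = algebraMap ℚ ℂ := Subsingleton.elim _ _
  rw [hcomp, Polynomial.IsRoot, Polynomial.eval_map, ← Polynomial.aeval_def]
  exact minpoly.aeval ℚ z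

theorem dscl_range_iotaBar_le [IsAlgClosed K] : iotaBar.range ≤ ι.range := by
  rintro z ⟨a, rfl⟩
  apply dscl_mem_range_of_isAlgebraic
  have ha : IsAlgebraic ℚ a := (AlgebraicClosure.isAlgebraic ℚ).isAlgebraic a
  have hcomp : iotaBar.comp (algebraMap ℚ QBar) = algebraMap ℚ ℂ := Subsingleton.elim _ _
  obtain ⟨p, hp0, hp⟩ := ha
  refine ⟨p, hp0, ?_⟩
  have h1 : Polynomial.aeval (iotaBar a) p = iotaBar (Polynomial.aeval a p) := by
    rw [Polynomial.aeval_def, Polynomial.aeval_def, ← hcomp, Polynomial.hom_eval₂]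
  rw [h1, hp, map_zero]

/-- Series with algebraic coefficients are `K`-rational, for every algebraically closed `K ⊂ ℂ`. -/
theorem dscl_exists_coeffMap_eq_iotaBar [IsAlgClosed K] (S₀ : LaurentSeries QBar) :
    ∃ S : LaurentSeries K, coeffMap ι S = coeffMap iotaBar S₀ := by
  apply dscl_exists_coeffMap_eq
  intro m
  rw [coeffMap_coeff]
  exact dscl_range_iotaBar_le ι ⟨_, rfl⟩

/-- The conjugates of `j(dτ)`, `d ∣ N`, have expansions in `exp(2πiτ/N)` with coefficients in
`ι(K)`. -/
theorem dscl_conj_exists_exp_jdHol [IsAlgClosed K] (N : ℕ) [NeZero N] (g : SL(2, ℤ)) (d : ℕ)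
    [NeZero d] (hd : d ∣ N) :
    ∃ S : LaurentSeries K,
      HasCuspExp N ((g • jdHol d : HolRing) : ℍ → ℂ) (coeffMap ι S) := by
  obtain ⟨S₀, hS₀⟩ := conj_exists_exp_jdHol N g d hd
  obtain ⟨S, hS⟩ := dscl_exists_coeffMap_eq_iotaBar ι S₀
  exact ⟨S, by rw [hS]; exact hS₀⟩

end Fermat.Agent.DS
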