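/-
Program DS (S48), package (C), row C2 — generic level datum: basic properties of the bridge and
the expansions `dsclCuspHom L g : L.R →+* K((s))`, `s = exp(2πiτ/h)`, of the conjugates.
(Generic port of `S24/Bridge.lean` (end) and `S24/Conj.lean` (2nd half).)
-/
import Mathlib
import Fermat.Agent.S24.Bridge
import Fermat.Agent.DS.C.Lv.Defs
import Fermat.Agent.DS.C.Lv.Invariant

set_option autoImplicit false
set_option linter.unusedSectionVars false

noncomputable section

namespace Fermat.Agent.DS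

open UpperHalfPlane ModularCurve Fermat.Agent.S24
open scoped MatrixGroups Manifold ModularForm Real

variable {K : Type} [Field K] [Algebra ℚ K] {ι : K →+* ℂ} (L : DscLevel K ι)

/-! ### the bridge -/

theorem dscl_coeffMap_algebraMap (c : K) :
    coeffMap ι (algebraMap K (LaurentSeries K) c) = HahnSeries.C (ι c) := by
  rw [algebraMap_laurentSeries_eq_single, coeffMap_single]
  rfl

theorem dscl_toHol_injective : Function.Injective L.toHol := by
  intro x y hxy
  have hx := L.hasCuspExp x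
  have hy := L.hasCuspExp y
  rw [hxy] at hx
  have h := hx.unique hy
  exact Subtype.ext (Subtype.ext (dscl_coeffMap_injective ι h))

theorem dscl_toHol_algebraMap (c : K) :
    L.toHol (algebraMap K L.R c) = HolRing.C (ι c) := by
  refine bridge_hol_ext (L.hasCuspExp _) ?_
  have h1 : ((((algebraMap K L.R c : L.R) : L.F)) :
      LaurentSeries K) = algebraMap K (LaurentSeries K) c := rfl
  rw [h1, dscl_coeffMap_algebraMap]
  exact HasCuspExp.const (ι c)

theorem dscl_toHol_jR : L.toHol L.jR = jHol := by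
  refine bridge_hol_ext (L.hasCuspExp _) ?_
  show HasCuspExp 1 (jHol : ℍ → ℂ) (coeffMap ι (((L.jR : L.R) : L.F) : LaurentSeries K))
  rw [L.coe_jR, dscl_coeffMap_coeffEmb_jq]
  exact hasCuspExp_jFun

/-- The conjugate `g • toHol x` only depends on the coset `g Γ`. -/
theorem dscl_smul_toHol_eq_of_coset (x : L.R) {g g' : SL(2, ℤ)}
    (h : g⁻¹ * g' ∈ L.Γ) : g' • L.toHol x = g • L.toHol x := by
  have h1 : g' = g * (g⁻¹ * g') := by group
  rw [h1, mul_smul, L.inv _ h]

/-! ### expansions of the conjugates -/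

/-- Expansions at `i∞` of the conjugates, as a ring hom into `K((s))`, `s = exp(2πiτ/h)`. -/
theorem dscl_exists_cuspHom (g : SL(2, ℤ)) : ∃ φ : L.R →+* LaurentSeries K,
    ∀ x : L.R, HasCuspExp L.h ((g • L.toHol x : HolRing) : ℍ → ℂ) (coeffMap ι (φ x)) := by
  choose φ hφ using L.conj g
  have huniq : ∀ (x : L.R) (S : LaurentSeries K),
      HasCuspExp L.h ((g • L.toHol x : HolRing) : ℍ → ℂ) (coeffMap ι S) → φ x = S :=
    fun x S hS => dscl_coeffMap_injective ι ((hφ x).unique hS)
  refine ⟨{ toFun := φ, map_one' := ?_, map_mul' := ?_, map_zero' := ?_, map_add' := ?_ }, hφ⟩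
  · apply huniq
    rw [map_one, smul_one, map_one, ← HahnSeries.C_one]
    exact HasCuspExp.const 1
  · intro x y
    apply huniq
    rw [map_mul, smul_mul', map_mul]
    exact (hφ x).mul (hφ y)
  · apply huniq
    rw [map_zero, smul_zero, map_zero, ← HahnSeries.C_zero]
    exact HasCuspExp.const 0
  · intro x y
    apply huniq
    rw [map_add, smul_add, map_add]
    exact (hφ x).add (hφ y)

/-- Expansion at `i∞` of `f ∘ g⁻¹`. -/
def dsclCuspHom (g : SL(2, ℤ)) : L.R →+* LaurentSeries K := (dscl_exists_cuspHom L g).choose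

theorem dscl_hasCuspExp_cuspHom (g : SL(2, ℤ)) (x : L.R) :
    HasCuspExp L.h ((g • L.toHol x : HolRing) : ℍ → ℂ) (coeffMap ι (dsclCuspHom L g x)) :=
  (dscl_exists_cuspHom L g).choose_spec x

/-- Uniqueness: any expansion of `g • toHol x` with coefficients in `K` is `dsclCuspHom L g x`. -/
theorem dscl_cuspHom_eq (g : SL(2, ℤ)) (x : L.R) (S : LaurentSeries K)
    (hS : HasCuspExp L.h ((g • L.toHol x : HolRing) : ℍ → ℂ) (coeffMap ι S)) :
    dsclCuspHom L g x = S :=
  dscl_coeffMap_injective ι ((dscl_hasCuspExp_cuspHom L g x).unique hS)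

theorem dscl_cuspHom_injective (g : SL(2, ℤ)) : Function.Injective (dsclCuspHom L g) := by
  rw [injective_iff_map_eq_zero]
  intro x hx
  have h1 := dscl_hasCuspExp_cuspHom L g x
  rw [hx, map_zero, ← HahnSeries.C_zero] at h1
  have h2 : ((g • L.toHol x : HolRing) : ℍ → ℂ) = fun _ => (0 : ℂ) :=
    h1.eq_of_eq (HasCuspExp.const 0)
  have h3 : g • L.toHol x = 0 := Subtype.ext h2
  have h4 : L.toHol x = 0 := by
    have := congrArg (fun f => g⁻¹ • f) h3
    simpa using this
  exact (map_eq_zero_iff L.toHol (dscl_toHol_injective L)).mp h4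

theorem dscl_cuspHom_algebraMap (g : SL(2, ℤ)) (c : K) :
    dsclCuspHom L g (algebraMap K L.R c) = HahnSeries.C c := by
  apply dscl_cuspHom_eq
  rw [dscl_toHol_algebraMap]
  have h2 : ((g • HolRing.C (ι c) : HolRing) : ℍ → ℂ) = fun _ => ι c := rfl
  rw [h2]
  have h3 : coeffMap ι (HahnSeries.C c) = HahnSeries.C (ι c) :=
    coeffMap_single ι 0 c
  rw [h3]
  exact HasCuspExp.const _

theorem dscl_cuspHom_jR (g : SL(2, ℤ)) :
    dsclCuspHom L g L.jR = qExpand K L.h (coeffEmb K jq) := by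
  apply dscl_cuspHom_eq
  rw [dscl_toHol_jR, jHol_smul, coeffMap_qExpand]
  rw [dscl_coeffMap_coeffEmb_jq]
  have h2 := hasCuspExp_jFun.qExpand L.h
  rw [one_mul] at h2
  exact h2

/-- `dsclCuspHom` depends only on the left coset `g Γ`. -/
theorem dscl_cuspHom_mul_of_mem (g γ : SL(2, ℤ)) (hγ : γ ∈ L.Γ) :
    dsclCuspHom L (g * γ) = dsclCuspHom L g := by
  ext1 x
  apply dscl_cuspHom_eq
  rw [mul_smul, L.inv γ hγ x]
  exact dscl_hasCuspExp_cuspHom L g x

/-- Distinct cosets give distinct expansions. -/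
theorem dscl_mem_of_cuspHom_eq (g g' : SL(2, ℤ)) (h : dsclCuspHom L g = dsclCuspHom L g') :
    g⁻¹ * g' ∈ L.Γ := by
  apply L.sep
  intro x
  have h1 := dscl_hasCuspExp_cuspHom L g x
  have h2 := dscl_hasCuspExp_cuspHom L g' x
  rw [h] at h1
  have h3 : g • L.toHol x = g' • L.toHol x := Subtype.ext (h1.eq_of_eq h2)
  rw [mul_smul, ← h3, inv_smul_smul]

/-- Left multiplication by `T⁻¹` rotates the expansion by `exp(2πi/h)`. -/
theorem dscl_cuspHom_T_inv_mul (g : SL(2, ℤ)) (x : L.R) (ζ : ℂˣ)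
    (hζ : (ζ : ℂ) = Complex.exp (2 * π * Complex.I / L.h)) :
    coeffMap ι (dsclCuspHom L (ModularGroup.T⁻¹ * g) x) =
      rotLaurent ζ (coeffMap ι (dsclCuspHom L g x)) := by
  have h1 := dscl_hasCuspExp_cuspHom L (ModularGroup.T⁻¹ * g) x
  have h2 := (dscl_hasCuspExp_cuspHom L g x).comp_T ζ hζ
  refine h1.unique ?_
  have hfun : (((ModularGroup.T⁻¹ * g) • L.toHol x : HolRing) : ℍ → ℂ) =
      fun τ => ((g • L.toHol x : HolRing) : ℍ → ℂ) (ModularGroup.T • τ) := by
    funext τ
    rw [mul_smul, HolRing.inv_smul_apply]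
  rw [hfun]
  exact h2

end Fermat.Agent.DS
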