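/-
Program DS (S48), package (C), row C2 — generic level datum:
`[F : K(j)] = [SL(2,ℤ) : Γ]`, `j` is a separating transcendental generator.
(Generic port of `S24/Degree.lean`: `QBar ↦ K`, `iotaBar ↦ ι`, `RBar N ↦ L.R`, `Γ₀(N) ↦ L.Γ`.)
-/
import Mathlib
import Fermat.Agent.S24.Degree
import Fermat.Agent.DS.C.Lv.Defs
import Fermat.Agent.DS.C.Lv.Invariant
import Fermat.Agent.DS.C.Lv.Cusp

set_option autoImplicit false
set_option linter.unusedSectionVars false

noncomputable section

namespace Fermat.Agent.DS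

open UpperHalfPlane ModularCurve IntermediateField Fermat.Agent.S24
open scoped MatrixGroups Manifold ModularForm Real

variable {K : Type} [Field K] [Algebra ℚ K] [IsAlgClosed K] {ι : K →+* ℂ} (L : DscLevel K ι)

theorem dscl_deg_coe_algebraMap (c : K) :
    ((algebraMap K (L.F) c : L.F) :
      LaurentSeries K) = HahnSeries.C c := by
  rw [HahnSeries.C_apply, ← algebraMap_laurentSeries_eq_single]
  rfl

theorem dscl_transcendental_jF : Transcendental K (L.jF) := by
  intro halg
  have hint : IsIntegral K (L.jF) := halg.isIntegral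
  have hdeg : (minpoly K (L.jF)).degree = 1 :=
    IsAlgClosed.degree_eq_one_of_irreducible _ (minpoly.irreducible hint)
  obtain ⟨c, hc⟩ := minpoly.mem_range_of_degree_eq_one K (L.jF) hdeg
  have h1 := congrArg (fun x : L.F => (x : LaurentSeries K).coeff (-1)) hc
  simp only [dscl_deg_coe_algebraMap, DscLevel.coe_jF, coeffEmb_coeff, coeff_jq_neg_one, map_one] at h1
  rw [HahnSeries.C_apply, HahnSeries.coeff_single_of_ne (by norm_num)] at h1
  exact zero_ne_one h1

/-! ### Pairs (holomorphic function, expansion with algebraic coefficients) -/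

/-- The ring of pairs `(f, s)` where `s` is the expansion of `f` in `exp(2πiτ/h)`. -/
def dsclExpSubring {K : Type} [Field K] (ι : K →+* ℂ) (h : ℕ) [NeZero h] :
    Subring (HolRing × LaurentSeries K) where
  carrier := {p | HasCuspExp h (p.1 : ℍ → ℂ) (coeffMap ι p.2)}
  mul_mem' := by
    intro a b ha hb
    show HasCuspExp h ((a * b).1 : ℍ → ℂ) (coeffMap ι (a * b).2)
    rw [Prod.fst_mul, Prod.snd_mul, map_mul, Subring.coe_mul]
    exact HasCuspExp.mul ha hb
  one_mem' := by
    show HasCuspExp h ((1 : HolRing × LaurentSeries K).1 : ℍ → ℂ)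
      (coeffMap ι (1 : HolRing × LaurentSeries K).2)
    rw [Prod.fst_one, Prod.snd_one, map_one, Subring.coe_one]
    have := HasCuspExp.const (h := h) (1 : ℂ)
    rw [map_one] at this
    exact this
  add_mem' := by
    intro a b ha hb
    show HasCuspExp h ((a + b).1 : ℍ → ℂ) (coeffMap ι (a + b).2)
    rw [Prod.fst_add, Prod.snd_add, map_add, Subring.coe_add]
    exact HasCuspExp.add ha hb
  zero_mem' := by
    show HasCuspExp h ((0 : HolRing × LaurentSeries K).1 : ℍ → ℂ)
      (coeffMap ι (0 : HolRing × LaurentSeries K).2)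
    rw [Prod.fst_zero, Prod.snd_zero, map_zero, Subring.coe_zero]
    have := HasCuspExp.const (h := h) (0 : ℂ)
    rw [map_zero] at this
    exact this
  neg_mem' := by
    intro a ha
    show HasCuspExp h ((-a).1 : ℍ → ℂ) (coeffMap ι (-a).2)
    rw [Prod.fst_neg, Prod.snd_neg, map_neg, NegMemClass.coe_neg]
    exact HasCuspExp.neg ha

theorem dscl_mem_expSubring {h : ℕ} [NeZero h] {p : HolRing × LaurentSeries K} :
    p ∈ dsclExpSubring ι h ↔ HasCuspExp h (p.1 : ℍ → ℂ) (coeffMap ι p.2) := Iff.rfl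


/-! ### The orbit polynomial -/

section Orbit

/-- A `Fintype` structure on the coset space (local to this file). -/
local instance dsclFintypeQuot : Fintype (SL(2, ℤ) ⧸ L.Γ) :=
  Fintype.ofFinite _

variable {L}


/-- The conjugate of `x` by `g` together with its expansion. -/
def dsclDegConjPair (g : SL(2, ℤ)) (x : L.R) : dsclExpSubring ι L.h :=
  ⟨(g • L.toHol x, dsclCuspHom L g x), dscl_hasCuspExp_cuspHom L g x⟩

/-- First projection. -/
def dsclDegFst : dsclExpSubring ι L.h →+* HolRing :=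
  (RingHom.fst HolRing (LaurentSeries K)).comp (dsclExpSubring ι L.h).subtype

/-- Second projection. -/
def dsclDegSnd : dsclExpSubring ι L.h →+* LaurentSeries K :=
  (RingHom.snd HolRing (LaurentSeries K)).comp (dsclExpSubring ι L.h).subtype

@[simp] theorem dsclDegFst_degConjPair (g : SL(2, ℤ)) (x : L.R) :
    dsclDegFst (dsclDegConjPair g x) = g • L.toHol x := rfl

@[simp] theorem dsclDegSnd_degConjPair (g : SL(2, ℤ)) (x : L.R) :
    dsclDegSnd (dsclDegConjPair g x) = dsclCuspHom L g x := rfl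

/-- The orbit polynomial with coefficients in the ring of pairs. -/
def dsclDegOrbPoly (x : L.R) : Polynomial (dsclExpSubring ι L.h) :=
  ∏ ξ : SL(2, ℤ) ⧸ L.Γ,
    (Polynomial.X - Polynomial.C (dsclDegConjPair ξ.out x))

/-- The orbit polynomial of holomorphic functions. -/
def dsclDegOrbHol (x : L.R) : Polynomial HolRing :=
  ∏ ξ : SL(2, ℤ) ⧸ L.Γ,
    (Polynomial.X - Polynomial.C (ξ.out • L.toHol x))

/-- The orbit polynomial of expansions. -/
def dsclDegOrbSer (x : L.R) : Polynomial (LaurentSeries K) :=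
  ∏ ξ : SL(2, ℤ) ⧸ L.Γ,
    (Polynomial.X - Polynomial.C (dsclCuspHom L ξ.out x))

theorem dsclDegOrbPoly_map_fst (x : L.R) : (dsclDegOrbPoly x).map dsclDegFst = dsclDegOrbHol x := by
  simp [dsclDegOrbPoly, dsclDegOrbHol, Polynomial.map_prod]

theorem dsclDegOrbPoly_map_snd (x : L.R) : (dsclDegOrbPoly x).map dsclDegSnd = dsclDegOrbSer x := by
  simp [dsclDegOrbPoly, dsclDegOrbSer, Polynomial.map_prod]

theorem dscl_hasCuspExp_degOrb_coeff (x : L.R) (k : ℕ) :
    HasCuspExp L.h (((dsclDegOrbHol x).coeff k : HolRing) : ℍ → ℂ)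
      (coeffMap ι ((dsclDegOrbSer x).coeff k)) := by
  have h := ((dsclDegOrbPoly x).coeff k).2
  rw [dscl_mem_expSubring] at h
  rw [← dsclDegOrbPoly_map_fst, ← dsclDegOrbPoly_map_snd, Polynomial.coeff_map, Polynomial.coeff_map]
  exact h

theorem dsclDegOrbSer_monic (x : L.R) : (dsclDegOrbSer x).Monic :=
  Polynomial.monic_prod_of_monic _ _ fun _ _ => Polynomial.monic_X_sub_C _

theorem dsclDegOrbSer_natDegree (x : L.R) :
    (dsclDegOrbSer x).natDegree = Nat.card (SL(2, ℤ) ⧸ L.Γ) := by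
  rw [dsclDegOrbSer, Polynomial.natDegree_prod_of_monic _ _ fun _ _ => Polynomial.monic_X_sub_C _]
  simp [Nat.card_eq_fintype_card]

theorem dsclDegOrbSer_eval (x : L.R) (g : SL(2, ℤ)) :
    (dsclDegOrbSer x).eval (dsclCuspHom L g x) = 0 := by
  rw [dsclDegOrbSer, Polynomial.eval_prod]
  refine Finset.prod_eq_zero (Finset.mem_univ (QuotientGroup.mk g)) ?_
  have hg : (QuotientGroup.mk g : SL(2, ℤ) ⧸ L.Γ).out⁻¹ * g ∈
      L.Γ := by
    rw [← QuotientGroup.eq]
    exact QuotientGroup.out_eq' _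
  have h1 : dsclCuspHom L g = dsclCuspHom L (QuotientGroup.mk g : SL(2, ℤ) ⧸ L.Γ).out := by
    have : g = (QuotientGroup.mk g : SL(2, ℤ) ⧸ L.Γ).out *
        ((QuotientGroup.mk g : SL(2, ℤ) ⧸ L.Γ).out⁻¹ * g) := by group
    rw [this, dscl_cuspHom_mul_of_mem L _ _ hg]
    congr 1
    group
  simp [h1]

/-- The conjugates are permuted by `SL(2, ℤ)`. -/
theorem dscl_smul_out_smul_toHol (γ : SL(2, ℤ)) (ξ : SL(2, ℤ) ⧸ L.Γ)
    (x : L.R) : γ • (ξ.out • L.toHol x) = (γ • ξ).out • L.toHol x := by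
  rw [← mul_smul]
  refine dscl_smul_toHol_eq_of_coset L x ?_
  rw [← QuotientGroup.eq, QuotientGroup.out_eq']
  conv_lhs => rw [← QuotientGroup.out_eq' ξ]
  rfl

theorem dscl_smul_degOrbHol_coeff (γ : SL(2, ℤ)) (x : L.R) (k : ℕ) :
    γ • (dsclDegOrbHol x).coeff k = (dsclDegOrbHol x).coeff k := by
  have h1 : γ • (dsclDegOrbHol x).coeff k =
      ((dsclDegOrbHol x).map (MulSemiringAction.toRingHom SL(2, ℤ) HolRing γ)).coeff k := by
    rw [Polynomial.coeff_map]; rfl
  rw [h1]
  congr 1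
  rw [dsclDegOrbHol, Polynomial.map_prod]
  simp only [Polynomial.map_sub, Polynomial.map_X, Polynomial.map_C,
    MulSemiringAction.toRingHom_apply, dscl_smul_out_smul_toHol]
  exact Fintype.prod_equiv (MulAction.toPerm γ) _ _ fun ξ => rfl


/-- Every coefficient of the orbit polynomial of expansions is a polynomial in `j(q^L)`
(in the variable `s = q^(1/L)`). -/
theorem dscl_deg_exists_poly_coeff (x : L.R) (k : ℕ) :
    ∃ Q : Polynomial K,
      (dsclDegOrbSer x).coeff k = qExpand K L.h (Polynomial.aeval (coeffEmb K jq) Q) := by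
  set c := (dsclDegOrbSer x).coeff k with hc
  set f : HolRing := (dsclDegOrbHol x).coeff k with hf
  have hexp : HasCuspExp L.h (f : ℍ → ℂ) (coeffMap ι c) := dscl_hasCuspExp_degOrb_coeff x k
  have hinv : ∀ γ : SL(2, ℤ), γ • f = f := fun γ => dscl_smul_degOrbHol_coeff γ x k
  have hper : ∀ τ : ℍ, (f : ℍ → ℂ) (ModularGroup.T • τ) = (f : ℍ → ℂ) τ := by
    intro τ
    rw [← HolRing.inv_smul_apply, hinv]
  obtain ⟨S₁, hS₁, hS₁'⟩ := hexp.exists_of_periodic hper
  have hS : coeffMap ι (degContract L.h c) = S₁ := by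
    ext m
    rw [coeffMap_coeff, degContract_coeff, ← coeffMap_coeff, hS₁', qExpand_coeff_mul]
  have hcS : c = qExpand K L.h (degContract L.h c) := by
    apply deg_coeffMap_injective ι ι.injective
    rw [ModularCurve.coeffMap_qExpand, hS, hS₁']
  obtain ⟨Q, hQ⟩ := dscl_exists_poly_of_invariant ι f hinv (degContract L.h c) (by rw [hS]; exact hS₁)
  exact ⟨Q, by rw [← hQ]; exact hcS⟩


theorem dscl_deg_algebraMap_laurent (c : K) :
    algebraMap K (LaurentSeries K) c = HahnSeries.C c := by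
  rw [HahnSeries.C_apply, algebraMap_laurentSeries_eq_single]

theorem dscl_cuspHom_aeval (g : SL(2, ℤ)) (Q : Polynomial K) :
    dsclCuspHom L g (Polynomial.aeval (L.jR) Q) =
      qExpand K L.h (Polynomial.aeval (coeffEmb K jq) Q) := by
  have h : (dsclCuspHom L g).comp (Polynomial.aeval (R := K) (L.jR)).toRingHom =
      (qExpand K L.h).comp (Polynomial.aeval (R := K) (coeffEmb K jq)).toRingHom := by
    apply Polynomial.ringHom_ext
    · intro c
      simp only [RingHom.coe_comp, AlgHom.toRingHom_eq_coe, RingHom.coe_coe, Function.comp_apply,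
        Polynomial.aeval_C, dscl_cuspHom_algebraMap, dscl_deg_algebraMap_laurent, qExpand_C]
    · simp only [RingHom.coe_comp, AlgHom.toRingHom_eq_coe, RingHom.coe_coe, Function.comp_apply,
        Polynomial.aeval_X]
      exact dscl_cuspHom_jR L g
  exact RingHom.congr_fun h Q

theorem dscl_exists_monic_of_mem_R (x : L.R) :
    ∃ P : Polynomial (Polynomial K), P.Monic ∧
      P.natDegree = Nat.card (SL(2, ℤ) ⧸ L.Γ) ∧
      Polynomial.eval₂ ((Polynomial.aeval (L.jF)).toRingHom) (x : L.F) P = 0 := by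
  set φ : Polynomial K →+* LaurentSeries K :=
    (dsclCuspHom L 1).comp (Polynomial.aeval (R := K) (L.jR)).toRingHom with hφ
  have hlift : dsclDegOrbSer x ∈ Polynomial.lifts φ := by
    rw [Polynomial.lifts_iff_coeff_lifts]
    intro k
    obtain ⟨Q, hQ⟩ := dscl_deg_exists_poly_coeff x k
    exact ⟨Q, by rw [hQ]; exact dscl_cuspHom_aeval 1 Q⟩
  obtain ⟨P, hPmap, hPdeg, hPmonic⟩ :=
    Polynomial.lifts_and_natDegree_eq_and_monic hlift (dsclDegOrbSer_monic x)
  refine ⟨P, hPmonic, by rw [hPdeg, dsclDegOrbSer_natDegree], ?_⟩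
  have h0 : Polynomial.eval₂ (Polynomial.aeval (R := K) (L.jR)).toRingHom x P = 0 := by
    apply dscl_cuspHom_injective L 1
    rw [map_zero, Polynomial.hom_eval₂, ← Polynomial.eval_map, hPmap]
    exact dsclDegOrbSer_eval x 1
  have h1 := congrArg (L.R).val h0
  rw [map_zero] at h1
  rw [← h1]
  have h2 : (Polynomial.aeval (R := K) (L.jF)).toRingHom =
      ((L.R).val : L.R →+* L.F).comp
        (Polynomial.aeval (R := K) (L.jR)).toRingHom := by
    have := Polynomial.aeval_algHom (L.R).val (L.jR)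
    have h3 : (L.R).val (L.jR) = L.jF := rfl
    rw [h3] at this
    rw [this]
    rfl
  rw [h2]
  exact (Polynomial.hom_eval₂ P _ ((L.R).val : L.R →+* L.F) x).symm

end Orbit

/-! ### Finiteness and separability -/

section Finite

/-- The evaluation `Qbar[X] → Qbar(j)`, `X ↦ j`. -/
def dsclDegToE : Polynomial K →+* K⟮L.jF⟯ :=
  (Polynomial.aeval (R := K) (AdjoinSimple.gen K (L.jF))).toRingHom

theorem dscl_algebraMap_comp_degToE :
    (algebraMap K⟮L.jF⟯ (L.F)).comp (dsclDegToE L) =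
      (Polynomial.aeval (R := K) (L.jF)).toRingHom := by
  apply Polynomial.ringHom_ext
  · intro c
    simp only [dsclDegToE, RingHom.coe_comp, AlgHom.toRingHom_eq_coe, RingHom.coe_coe,
      Function.comp_apply, Polynomial.aeval_C]
    rfl
  · simp only [dsclDegToE, RingHom.coe_comp, AlgHom.toRingHom_eq_coe, RingHom.coe_coe,
      Function.comp_apply, Polynomial.aeval_X, AdjoinSimple.algebraMap_gen]

/-- Every element of `L.R` is a root of a monic polynomial of degree `n` over `Qbar(j)`. -/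
theorem dscl_exists_monic_adjoin_of_mem_R (x : L.R) :
    ∃ p : Polynomial K⟮L.jF⟯, p.Monic ∧
      p.natDegree = Nat.card (SL(2, ℤ) ⧸ L.Γ) ∧
      Polynomial.aeval (x : L.F) p = 0 := by
  obtain ⟨P, hmonic, hdeg, hP⟩ := dscl_exists_monic_of_mem_R x
  refine ⟨P.map (dsclDegToE L), hmonic.map _, by rw [hmonic.natDegree_map, hdeg], ?_⟩
  rw [Polynomial.aeval_def, Polynomial.eval₂_map, dscl_algebraMap_comp_degToE]
  exact hP

theorem dscl_isIntegral_of_mem_R (x : L.R) :
    IsIntegral K⟮L.jF⟯ (x : L.F) := by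
  obtain ⟨p, hmonic, -, hp⟩ := dscl_exists_monic_adjoin_of_mem_R L x
  exact ⟨p, hmonic, hp⟩

theorem dscl_adjoin_adjoin_gens_eq_top :
    IntermediateField.adjoin K⟮L.jF⟯ L.gens = ⊤ := by
  have h1 : IntermediateField.adjoin K L.gens ≤
      (IntermediateField.adjoin K⟮L.jF⟯ L.gens).restrictScalars K := by
    rw [IntermediateField.adjoin_le_iff]
    intro x hx
    exact IntermediateField.subset_adjoin K⟮L.jF⟯ L.gens hx
  rw [L.gens_top] at h1
  rw [eq_top_iff]
  intro x _
  exact h1 (IntermediateField.mem_top)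

theorem dscl_finiteDimensional_jF :
    FiniteDimensional K⟮L.jF⟯ L.F := by
  have : Finite L.gens := L.gens_finite.to_subtype
  have h : FiniteDimensional K⟮L.jF⟯ (IntermediateField.adjoin K⟮L.jF⟯ L.gens) := by
    refine IntermediateField.finiteDimensional_adjoin fun x hx => ?_
    exact dscl_isIntegral_of_mem_R L ⟨x, L.gens_sub x hx⟩
  rw [dscl_adjoin_adjoin_gens_eq_top] at h
  exact Module.Finite.equiv (IntermediateField.topEquiv (F := K⟮L.jF⟯)
    (E := L.F)).toLinearEquiv

theorem dscl_isSepGen_jF : IsSepGen K (L.jF) :=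
  haveI : CharZero K := charZero_of_injective_algebraMap (algebraMap ℚ K).injective
  IsSepGen.of_charZero (dscl_transcendental_jF L) (dscl_finiteDimensional_jF L)

end Finite

/-! ### The degree -/

section Degree

open Polynomial in
theorem dscl_finrank_jF_le :
    Module.finrank K⟮L.jF⟯ (L.F) ≤
      Nat.card (SL(2, ℤ) ⧸ L.Γ) := by
  classical
  haveI : CharZero K := charZero_of_injective_algebraMap (algebraMap ℚ K).injective
  haveI : CharZero K⟮L.jF⟯ := charZero_of_injective_algebraMap (algebraMap K K⟮L.jF⟯).injective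
  have hfd := dscl_finiteDimensional_jF L
  let Ω := AlgebraicClosure (L.F)
  rw [← AlgHom.card K⟮L.jF⟯ (L.F) Ω]
  have := L.frac
  -- the subspaces where two embeddings agree
  let W : {p : (L.F →ₐ[K⟮L.jF⟯] Ω) ×
      (L.F →ₐ[K⟮L.jF⟯] Ω) // p.1 ≠ p.2} → Subspace K (L.R) :=
    fun p => LinearMap.ker
      ((((p.1.1.restrictScalars K).comp (L.R).val).toLinearMap) -
        (((p.1.2.restrictScalars K).comp (L.R).val).toLinearMap))
  have hW : ∀ p, W p ≠ ⊤ := by
    intro p htop
    apply p.2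
    apply AlgHom.coe_ringHom_injective
    apply IsLocalization.ringHom_ext (nonZeroDivisors (L.R))
    ext r
    have hr : r ∈ W p := by rw [htop]; exact Submodule.mem_top
    have := LinearMap.mem_ker.mp hr
    simp only [LinearMap.sub_apply, AlgHom.toLinearMap_apply, AlgHom.comp_apply,
      AlgHom.restrictScalars_apply, sub_eq_zero] at this
    exact this
  have hcov : ⋃ p, (W p : Set (L.R)) ≠ Set.univ := by
    intro hcov
    obtain ⟨p, hp⟩ := Subspace.exists_eq_top_of_iUnion_eq_univ hcov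
    exact hW p hp
  obtain ⟨r, hr⟩ : ∃ r : L.R, r ∉ ⋃ p, (W p : Set (L.R)) := by
    by_contra hcon
    push Not at hcon
    exact hcov (Set.eq_univ_of_forall hcon)
  obtain ⟨p, hmonic, hdeg, hp⟩ := dscl_exists_monic_adjoin_of_mem_R L r
  -- the embeddings are separated by `r`
  have hinj : Function.Injective
      (fun σ : L.F →ₐ[K⟮L.jF⟯] Ω => σ (r : L.F)) := by
    intro σ σ' hσ
    by_contra hne
    apply hr
    rw [Set.mem_iUnion]
    refine ⟨⟨(σ, σ'), hne⟩, ?_⟩
    show r ∈ W ⟨(σ, σ'), hne⟩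
    simp only [W, LinearMap.mem_ker, LinearMap.sub_apply, AlgHom.toLinearMap_apply,
      AlgHom.comp_apply, AlgHom.restrictScalars_apply, sub_eq_zero]
    exact hσ
  have hroot : ∀ σ : L.F →ₐ[K⟮L.jF⟯] Ω,
      σ (r : L.F) ∈ (p.map (algebraMap K⟮L.jF⟯ Ω)).roots.toFinset := by
    intro σ
    rw [Multiset.mem_toFinset, Polynomial.mem_roots (Polynomial.map_ne_zero hmonic.ne_zero),
      Polynomial.IsRoot, Polynomial.eval_map, ← Polynomial.aeval_def, Polynomial.aeval_algHom_apply,
      hp, map_zero]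
  calc Fintype.card (L.F →ₐ[K⟮L.jF⟯] Ω)
      ≤ (p.map (algebraMap K⟮L.jF⟯ Ω)).roots.toFinset.card := by
        rw [← Finset.card_univ]
        exact Finset.card_le_card_of_injOn _ (fun σ _ => hroot σ) (fun σ _ σ' _ h => hinj h)
    _ ≤ Multiset.card (p.map (algebraMap K⟮L.jF⟯ Ω)).roots := Multiset.toFinset_card_le _
    _ ≤ (p.map (algebraMap K⟮L.jF⟯ Ω)).natDegree := Polynomial.card_roots' _
    _ = Nat.card (SL(2, ℤ) ⧸ L.Γ) := by
        rw [hmonic.natDegree_map, hdeg]


/-- Extension of `dsclCuspHom L g` to the function field. -/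
def dsclDegLift (g : SL(2, ℤ)) : L.F →+* LaurentSeries K :=
  haveI := L.frac
  IsFractionRing.lift (dscl_cuspHom_injective L g)

theorem dsclDegLift_coe (g : SL(2, ℤ)) (r : L.R) :
    dsclDegLift L g (r : L.F) = dsclCuspHom L g r := by
  have := L.frac
  exact IsFractionRing.lift_algebraMap (dscl_cuspHom_injective L g) r

theorem dsclDegLift_aeval (g : SL(2, ℤ)) (Q : Polynomial K) :
    dsclDegLift L g (Polynomial.aeval (L.jF) Q) =
      qExpand K L.h (Polynomial.aeval (coeffEmb K jq) Q) := by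
  have h : (Polynomial.aeval (L.jF) Q : L.F) =
      ((Polynomial.aeval (L.jR) Q : L.R) : L.F) :=
    (Polynomial.aeval_subalgebra_coe Q (L.R) (L.jR)).symm
  rw [h, dsclDegLift_coe, dscl_cuspHom_aeval]

theorem dsclDegLift_algebraMap_adjoin (g g' : SL(2, ℤ)) (e : K⟮L.jF⟯) :
    dsclDegLift L g (algebraMap K⟮L.jF⟯ (L.F) e) =
      dsclDegLift L g' (algebraMap K⟮L.jF⟯ (L.F) e) := by
  obtain ⟨r, s, hrs⟩ := (IntermediateField.mem_adjoin_simple_iff K _).mp e.2
  have he : algebraMap K⟮L.jF⟯ (L.F) e =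
      Polynomial.aeval (L.jF) r / Polynomial.aeval (L.jF) s := hrs
  rw [he, map_div₀, map_div₀, dsclDegLift_aeval, dsclDegLift_aeval, dsclDegLift_aeval, dsclDegLift_aeval]

theorem dscl_le_finrank_jF :
    Nat.card (SL(2, ℤ) ⧸ L.Γ) ≤
      Module.finrank K⟮L.jF⟯ (L.F) := by
  classical
  have hfd := dscl_finiteDimensional_jF L
  let _ : Algebra K⟮L.jF⟯ (LaurentSeries K) :=
    ((dsclDegLift L 1).comp (algebraMap K⟮L.jF⟯ (L.F))).toAlgebra
  let f : SL(2, ℤ) ⧸ L.Γ →
      (L.F →ₐ[K⟮L.jF⟯] LaurentSeries K) := fun ξ =>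
    { dsclDegLift L ξ.out with
      commutes' := fun e => dsclDegLift_algebraMap_adjoin L ξ.out 1 e }
  have hf : Function.Injective f := by
    intro ξ ξ' h
    have h1 : dsclCuspHom L ξ.out = dsclCuspHom L ξ'.out := by
      ext r : 1
      rw [← dsclDegLift_coe, ← dsclDegLift_coe]
      exact congrArg (fun φ : L.F →ₐ[K⟮L.jF⟯] LaurentSeries K =>
        φ (r : L.F)) h
    have h2 := dscl_mem_of_cuspHom_eq L _ _ h1
    rw [← QuotientGroup.eq, QuotientGroup.out_eq', QuotientGroup.out_eq'] at h2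
    exact h2
  have hli := (linearIndependent_toLinearMap K⟮L.jF⟯ (L.F)
    (LaurentSeries K)).comp f hf
  have hfin := (inferInstance : Finite (SL(2, ℤ) ⧸ L.Γ))
  let _ : Fintype (SL(2, ℤ) ⧸ L.Γ) := Fintype.ofFinite _
  have := hli.fintype_card_le_finrank
  rw [Module.finrank_linearMap_self] at this
  rw [Nat.card_eq_fintype_card]
  exact this

theorem dscl_finrank_jF :
    Module.finrank K⟮L.jF⟯ (L.F) =
      Nat.card (SL(2, ℤ) ⧸ L.Γ) :=
  le_antisymm (dscl_finrank_jF_le L) (dscl_le_finrank_jF L)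

end Degree


end Fermat.Agent.DS
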