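/-
Program DS (S48), package (C) — GENERIC LEVEL RAISING for helper17's level data (helper25).

From a level datum `L : DscLevel K ι` (e.g. `X₁(M)`) and `p ≥ 1` we build the level datum of the
field generated by `L.F` and `L.F(q^p)` (e.g. `X(Γ₁(M) ∩ Γ₀(p))`): ring = generated by `L.R` and
`L.R(q^p)`, bridge `x(q^p) ↦ (toHol x)(p τ)`, group = the full stabiliser, width `L.h * p`.
-/
import Mathlib
import Fermat.Prelude.Thm_ModularCurve_coeffMap_qExpand
import Fermat.Prelude.Def_ModularCurve_X0ModL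
import Fermat.Agent.S23.UNStab
import Fermat.Agent.S24.ADefs
import Fermat.Agent.S24.CuspExp
import Fermat.Agent.S24.Conj
import Fermat.Agent.DS.C.Lv.Defs
import Fermat.Agent.DS.C.Lv.Cusp

set_option autoImplicit false

noncomputable section

namespace Fermat.Agent.DS

open UpperHalfPlane ModularCurve Fermat.Agent.S24 Fermat.Agent.S23
open scoped MatrixGroups Manifold ModularForm Real

variable {K : Type} [Field K] [Algebra ℚ K] {ι : K →+* ℂ}

/-! ### The generic bridge: a `K`-algebra of expansions of holomorphic functions -/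

theorem dsclr_coeffMap_injective : Function.Injective (coeffMap ι) := by
  intro S T h
  ext m
  have := congrArg (fun U : LaurentSeries ℂ => U.coeff m) h
  simp only [coeffMap_coeff] at this
  exact ι.injective this

theorem dsclr_coeffMap_algebraMap (c : K) :
    coeffMap ι (algebraMap K (LaurentSeries K) c) = HahnSeries.C (ι c) := by
  rw [algebraMap_laurentSeries_eq_single, coeffMap_single]
  rfl

theorem dsclr_hol_ext {f g : HolRing} {S : LaurentSeries ℂ}
    (hf : HasCuspExp 1 (f : ℍ → ℂ) S) (hg : HasCuspExp 1 (g : ℍ → ℂ) S) : f = g :=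
  Subtype.ext (hf.eq_of_eq hg)

/-- the property "is the expansion at `∞` of a holomorphic function on `ℍ`". -/
def DsclrHol (ι : K →+* ℂ) (x : LaurentSeries K) : Prop :=
  ∃ f : HolRing, HasCuspExp 1 (f : ℍ → ℂ) (coeffMap ι x)

theorem DsclrHol.algebraMap (c : K) : DsclrHol ι (algebraMap K (LaurentSeries K) c) :=
  ⟨HolRing.C (ι c), by rw [dsclr_coeffMap_algebraMap]; exact HasCuspExp.const (ι c)⟩

theorem DsclrHol.add {x y : LaurentSeries K} (hx : DsclrHol ι x) (hy : DsclrHol ι y) :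
    DsclrHol ι (x + y) := by
  obtain ⟨f, hf⟩ := hx
  obtain ⟨g, hg⟩ := hy
  exact ⟨f + g, by rw [map_add]; exact hf.add hg⟩

theorem DsclrHol.mul {x y : LaurentSeries K} (hx : DsclrHol ι x) (hy : DsclrHol ι y) :
    DsclrHol ι (x * y) := by
  obtain ⟨f, hf⟩ := hx
  obtain ⟨g, hg⟩ := hy
  exact ⟨f * g, by rw [map_mul]; exact hf.mul hg⟩

/-- the generic bridge. -/
theorem dsclr_exists_toHol (F' : IntermediateField K (LaurentSeries K)) (A : Subalgebra K F')
    (hA : ∀ x : A, DsclrHol ι ((x : F') : LaurentSeries K)) :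
    ∃ φ : A →+* HolRing, ∀ x : A,
      HasCuspExp 1 (φ x : ℍ → ℂ) (coeffMap ι ((x : F') : LaurentSeries K)) := by
  choose φ hφ using hA
  refine ⟨{ toFun := φ, map_one' := ?_, map_mul' := ?_, map_zero' := ?_, map_add' := ?_ }, hφ⟩
  · refine dsclr_hol_ext (hφ 1) ?_
    have : coeffMap ι (((1 : A) : F') : LaurentSeries K) = HahnSeries.C (1 : ℂ) := by
      simp
    rw [this]
    exact HasCuspExp.const 1
  · intro x y
    refine dsclr_hol_ext (hφ (x * y)) ?_
    have : coeffMap ι (((x * y : A) : F') : LaurentSeries K) =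
        coeffMap ι ((x : F') : LaurentSeries K) * coeffMap ι ((y : F') : LaurentSeries K) := by
      simp
    rw [this]
    exact (hφ x).mul (hφ y)
  · refine dsclr_hol_ext (hφ 0) ?_
    have : coeffMap ι (((0 : A) : F') : LaurentSeries K) = HahnSeries.C (0 : ℂ) := by
      simp
    rw [this]
    exact HasCuspExp.const 0
  · intro x y
    refine dsclr_hol_ext (hφ (x + y)) ?_
    have : coeffMap ι (((x + y : A) : F') : LaurentSeries K) =
        coeffMap ι ((x : F') : LaurentSeries K) + coeffMap ι ((y : F') : LaurentSeries K) := by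
      simp
    rw [this]
    exact (hφ x).add (hφ y)

/-! ### Substitution `τ ↦ p τ` -/

theorem dsclr_det_utGL_pos (g : ℕ) (b : ℤ) (d : ℕ) : 0 < ((utGL g b d).det : ℝ) := by
  by_cases hg : g = 0
  · subst hg
    have : utGL 0 b d = 1 := by simp [utGL]
    rw [this]; simp
  by_cases hd : d = 0
  · subst hd
    have : utGL g b 0 = 1 := by simp [utGL]
    rw [this]; simp
  exact det_utGL_pos hg hd b

/-- `f ↦ f ∘ [A, B; 0, D]`. -/
def dsclrComp (A : ℕ) (B : ℤ) (D : ℕ) : HolRing →+* HolRing :=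
  HolRing.compGL (utGL A B D) (dsclr_det_utGL_pos A B D)

theorem dsclrComp_apply (A : ℕ) (B : ℤ) (D : ℕ) (f : HolRing) (τ : ℍ) :
    (dsclrComp A B D f : ℍ → ℂ) τ = (f : ℍ → ℂ) (utGL A B D • τ) := rfl

theorem dsclr_rotLaurent_one (S : LaurentSeries ℂ) : rotLaurent 1 S = S := by
  ext m
  simp

/-- affine substitution in an expansion of width `h`. -/
theorem dsclr_comp_affine {h a d : ℕ} [NeZero h] {f : ℍ → ℂ} {S : LaurentSeries ℂ}
    (ha : a ≠ 0) (hd : d ≠ 0) (b : ℤ)
    (g' : GL (Fin 2) ℝ) (hg' : ∀ τ : ℍ, ((g' • τ : ℍ) : ℂ) = ((a : ℂ) * τ + b) / d)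
    (hS : HasCuspExp h f S) (ζ : ℂˣ)
    (hζ : (ζ : ℂ) = Complex.exp (2 * π * Complex.I * b / (d * h))) :
    haveI : NeZero a := ⟨ha⟩
    HasCuspExp (h * d) (fun τ => f (g' • τ)) (ModularCurve.qExpand ℂ a (rotLaurent ζ S)) := by
  have : NeZero a := ⟨ha⟩
  intro τ
  have h1 := hS (g' • τ)
  have ha' : (a : ℤ) ≠ 0 := by exact_mod_cast ha
  have hd' : (d : ℂ) ≠ 0 := by exact_mod_cast hd
  have hh' : (h : ℂ) ≠ 0 := by exact_mod_cast NeZero.ne h
  have hinj : Function.Injective (fun m : ℤ => (a : ℤ) * m) := mul_right_injective₀ ha'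
  rw [← hinj.hasSum_iff]
  · have : ((fun m : ℤ => (ModularCurve.qExpand ℂ a (rotLaurent ζ S)).coeff m *
        Complex.exp (2 * π * Complex.I * m * τ / ((h * d : ℕ) : ℂ))) ∘ fun m : ℤ => (a : ℤ) * m) =
        fun m : ℤ => S.coeff m *
          Complex.exp (2 * π * Complex.I * m * ((g' • τ : ℍ) : ℂ) / (h : ℂ)) := by
      funext m
      simp only [Function.comp_apply, qExpand_coeff_mul, rotLaurent_coeff]
      rw [hg', hζ, ← Complex.exp_int_mul, mul_comm (Complex.exp _) (S.coeff m), mul_assoc,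
        ← Complex.exp_add]
      congr 2
      push_cast
      field_simp
      ring
    rw [this]
    exact h1
  · intro m hm
    rw [qExpand_coeff_of_not_dvd a _ (fun ⟨n, hn⟩ => hm ⟨n, hn.symm⟩), zero_mul]

/-- `f(p τ)` has the expansion `S(q^p)`. -/
theorem dsclr_hasCuspExp_comp (p : ℕ) [NeZero p] {f : HolRing} {S : LaurentSeries ℂ}
    (hS : HasCuspExp 1 (f : ℍ → ℂ) S) :
    HasCuspExp 1 (dsclrComp p 0 1 f : ℍ → ℂ) (ModularCurve.qExpand ℂ p S) := by
  have h := HasCuspExp.comp_affine (a := p) (d := 1) (NeZero.ne p) one_ne_zero 0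
    (utGL p 0 1) (fun τ => coe_utGL_smul (NeZero.ne p) one_ne_zero 0 τ) hS 1 (by simp)
  rw [dsclr_rotLaurent_one] at h
  exact h

theorem DsclrHol.qExpand (p : ℕ) [NeZero p] {x : LaurentSeries K} (hx : DsclrHol ι x) :
    DsclrHol ι (ModularCurve.qExpand K p x) := by
  obtain ⟨f, hf⟩ := hx
  exact ⟨dsclrComp p 0 1 f, by rw [coeffMap_qExpand]; exact dsclr_hasCuspExp_comp p hf⟩

/-! ### Series with coefficients in `ι(K)` -/

theorem dsclr_exists_coeffMap_eq (T : LaurentSeries ℂ) (hT : ∀ m : ℤ, T.coeff m ∈ ι.range) :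
    ∃ S : LaurentSeries K, coeffMap ι S = T := by
  choose c hc using hT
  have hsupp : Function.support c ⊆ T.support := by
    intro m hm
    rw [Function.mem_support] at hm
    rw [HahnSeries.mem_support]
    intro h0
    apply hm
    apply ι.injective
    rw [hc m, h0, map_zero]
  refine ⟨⟨c, T.isPWO_support.mono hsupp⟩, ?_⟩
  ext m
  rw [coeffMap_coeff]
  exact hc m

theorem dsclr_mem_range_of_pow_eq_one [IsAlgClosed K] {z : ℂ} {n : ℕ} (hn : n ≠ 0)
    (hz : z ^ n = 1) : z ∈ ι.range := by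
  have hf : ((Polynomial.X : Polynomial K) ^ n - Polynomial.C 1).Splits := IsAlgClosed.splits _
  have hf0 : ((Polynomial.X : Polynomial K) ^ n - Polynomial.C 1) ≠ 0 :=
    Polynomial.X_pow_sub_C_ne_zero (Nat.pos_of_ne_zero hn) 1
  refine hf.mem_range_of_isRoot hf0 ?_
  simp [Polynomial.IsRoot, hz]

/-- rotation by a root of unity preserves "coefficients in `ι(K)`". -/
theorem dsclr_exists_rot [IsAlgClosed K] {n : ℕ} (hn : n ≠ 0) (ζ : ℂˣ) (hζ : (ζ : ℂ) ^ n = 1)
    (S : LaurentSeries K) : ∃ S' : LaurentSeries K, coeffMap ι S' = rotLaurent ζ (coeffMap ι S) := by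
  apply dsclr_exists_coeffMap_eq
  intro m
  rw [rotLaurent_coeff]
  obtain ⟨c, hc⟩ := dsclr_mem_range_of_pow_eq_one (ι := ι) hn hζ
  refine Subring.mul_mem _ ⟨c ^ m, ?_⟩ ⟨S.coeff m, ?_⟩
  · rw [map_zpow₀, hc]
  · rw [coeffMap_coeff]

/-! ### Hermite decomposition and the conjugates of `f(p τ)` -/

/-- translation `[1, k; 0, 1]`. -/
def dsclrT (k : ℤ) : SL(2, ℤ) := ⟨!![1, k; 0, 1], by rw [Matrix.det_fin_two_of]; ring⟩

theorem dsclr_T_mul_utGL {A D : ℕ} (hA : A ≠ 0) (hD : D ≠ 0) (B k : ℤ) :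
    Matrix.SpecialLinearGroup.mapGL ℝ (dsclrT k) * utGL A B D = utGL A (B + k * D) D := by
  apply Matrix.GeneralLinearGroup.ext
  intro i j
  simp only [Matrix.GeneralLinearGroup.coe_mul, val_utGL hA hD, Matrix.mul_apply,
    Fin.sum_univ_two, unstab_mapGL_apply]
  fin_cases i <;> fin_cases j <;> simp [dsclrT]

/-- Hermite decomposition with reduced `B`. -/
theorem dsclr_exists_decomp (p : ℕ) (hp : p ≠ 0) (g : SL(2, ℤ)) :
    ∃ (g' : SL(2, ℤ)) (A D : ℕ) (B : ℤ), A ≠ 0 ∧ D ≠ 0 ∧ A * D = p ∧ 0 ≤ B ∧ B < D ∧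
      utGL p 0 1 * Matrix.SpecialLinearGroup.mapGL ℝ g
        = Matrix.SpecialLinearGroup.mapGL ℝ g' * utGL A B D := by
  by_cases hg : (p : ℤ) ∣ g 1 0
  · obtain ⟨c', hc⟩ := hg
    exact ⟨unstab_conjSL p g c' hc, p, 1, 0, hp, one_ne_zero, by simp, le_refl _, by simp,
      utGL_mul_mapGL p hp g c' hc⟩
  · obtain ⟨A, D, b', β, hA, hD, hAD, -, h⟩ := unstab_exists_hermite_decomp p hp g hg
    have hDpos : (0 : ℤ) < D := by exact_mod_cast Nat.pos_of_ne_zero hD
    refine ⟨β * dsclrT (b' / D), A, D, b' % D, hA, hD, hAD, Int.emod_nonneg _ hDpos.ne',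
      Int.emod_lt_of_pos _ hDpos, ?_⟩
    rw [h, map_mul, mul_assoc, dsclr_T_mul_utGL hA hD]
    congr 2
    linarith [Int.emod_add_mul_ediv b' (D : ℤ), mul_comm (b' / (D : ℤ)) (D : ℤ)]

/-- the conjugates of `f(p τ)` : `g • f(p ·) = (g'⁻¹ • f)((A τ + B)/D)`. -/
theorem dsclr_smul_comp (p : ℕ) (hp : p ≠ 0) (g : SL(2, ℤ)) :
    ∃ (g' : SL(2, ℤ)) (A D : ℕ) (B : ℤ), A ≠ 0 ∧ D ≠ 0 ∧ A * D = p ∧ 0 ≤ B ∧ B < D ∧
      ∀ f : HolRing, g • dsclrComp p 0 1 f = dsclrComp A B D (g' • f) := by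
  obtain ⟨g', A, D, B, hA, hD, hAD, hB0, hBD, h⟩ := dsclr_exists_decomp p hp g⁻¹
  refine ⟨g'⁻¹, A, D, B, hA, hD, hAD, hB0, hBD, fun f => ?_⟩
  apply Subtype.ext
  funext τ
  rw [HolRing.smul_apply, dsclrComp_apply, dsclrComp_apply, HolRing.smul_apply, inv_inv]
  have e : utGL p 0 1 • (g⁻¹ • τ) = g' • (utGL A B D • τ) := by
    have h1 : utGL p 0 1 • (g⁻¹ • τ) =
        (utGL p 0 1 * Matrix.SpecialLinearGroup.mapGL ℝ g⁻¹) • τ := by
      rw [mul_smul]; rfl
    have h2 : g' • (utGL A B D • τ) =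
        (Matrix.SpecialLinearGroup.mapGL ℝ g' * utGL A B D) • τ := by
      rw [mul_smul]; rfl
    rw [h1, h2, h]
  rw [e]

/-- expansions of the conjugates of `f(p τ)`, of width `h p`, with coefficients in `ι(K)`. -/
theorem dsclr_conj_comp [IsAlgClosed K] {h : ℕ} [NeZero h] (p : ℕ) [NeZero p] (f : HolRing)
    (hf : ∀ g : SL(2, ℤ), ∃ S : LaurentSeries K,
      HasCuspExp h ((g • f : HolRing) : ℍ → ℂ) (coeffMap ι S)) (g : SL(2, ℤ)) :
    ∃ S : LaurentSeries K,
      HasCuspExp (h * p) ((g • dsclrComp p 0 1 f : HolRing) : ℍ → ℂ) (coeffMap ι S) := by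
  obtain ⟨g', A, D, B, hA, hD, hAD, -, -, hsm⟩ := dsclr_smul_comp p (NeZero.ne p) g
  obtain ⟨S₀, hS₀⟩ := hf g'
  haveI : NeZero A := ⟨hA⟩
  haveI : NeZero D := ⟨hD⟩
  have hDc : (D : ℂ) ≠ 0 := by exact_mod_cast hD
  have hhc : (h : ℂ) ≠ 0 := by exact_mod_cast NeZero.ne h
  set ζ : ℂˣ := Units.mk0 (Complex.exp (2 * π * Complex.I * B / (D * h))) (Complex.exp_ne_zero _)
    with hζdef
  have hζ : (ζ : ℂ) = Complex.exp (2 * π * Complex.I * B / (D * h)) := rfl
  have hζpow : (ζ : ℂ) ^ (D * h) = 1 := by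
    rw [hζ, ← Complex.exp_nat_mul]
    have : ((D * h : ℕ) : ℂ) * (2 * π * Complex.I * B / (D * h)) = B * (2 * π * Complex.I) := by
      push_cast
      field_simp
    rw [this, Complex.exp_int_mul_two_pi_mul_I]
  have h1 := dsclr_comp_affine (h := h) hA hD B (utGL A B D)
    (fun τ => coe_utGL_smul hA hD B τ) hS₀ ζ hζ
  have h2 := h1.qExpand A
  obtain ⟨S₁, hS₁⟩ := dsclr_exists_rot (ι := ι) (Nat.mul_ne_zero hD (NeZero.ne h)) ζ hζpow S₀
  refine ⟨ModularCurve.qExpand K A (ModularCurve.qExpand K A S₁), ?_⟩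
  rw [coeffMap_qExpand, coeffMap_qExpand, hS₁, hsm f]
  have e : h * p = h * D * A := by rw [← hAD]; ring
  rw [e]
  exact h2

/-! ### Field-theoretic bookkeeping -/

omit [Algebra ℚ K] in
theorem dsclr_adjoin_preimage_eq_top (F' : IntermediateField K (LaurentSeries K))
    (G : Set (LaurentSeries K)) (hF' : F' = IntermediateField.adjoin K G) :
    IntermediateField.adjoin K ((fun y : F' => (y : LaurentSeries K)) ⁻¹' G) = ⊤ := by
  apply IntermediateField.map_injective F'.val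
  rw [IntermediateField.adjoin_map, ← AlgHom.fieldRange_eq_map, IntermediateField.fieldRange_val]
  have hsub : G ⊆ Set.range (F'.val) := by
    intro x hx
    have : x ∈ F' := by rw [hF']; exact IntermediateField.subset_adjoin K G hx
    exact ⟨⟨x, this⟩, rfl⟩
  have : (F'.val : F' → LaurentSeries K) '' ((fun y : F' => (y : LaurentSeries K)) ⁻¹' G) = G :=
    Set.image_preimage_eq_of_subset hsub
  rw [this, ← hF']

theorem dsclr_F_eq_adjoin (L : DscLevel K ι) :
    L.F = IntermediateField.adjoin K ((fun x : L.F => (x : LaurentSeries K)) '' L.gens) := by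
  have h := congrArg (IntermediateField.map L.F.val) L.gens_top
  rw [IntermediateField.adjoin_map, ← AlgHom.fieldRange_eq_map,
    IntermediateField.fieldRange_val] at h
  exact h.symm

section Raise

variable (L : DscLevel K ι) (p : ℕ) [NeZero p]

/-- the generators of the raised level, as Laurent series. -/
def dsclrGenSet : Set (LaurentSeries K) :=
  (fun x : L.F => (x : LaurentSeries K)) '' L.gens ∪
    (fun x : L.F => ModularCurve.qExpand K p (x : LaurentSeries K)) '' L.gens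

theorem dsclr_genSet_finite : (dsclrGenSet L p).Finite :=
  (L.gens_finite.image _).union (L.gens_finite.image _)

variable {L p} {F' : IntermediateField K (LaurentSeries K)}

theorem dsclr_coe_mem (hF' : F' = IntermediateField.adjoin K (dsclrGenSet L p)) (x : L.F) :
    (x : LaurentSeries K) ∈ F' := by
  have h1 : L.F ≤ F' := by
    rw [dsclr_F_eq_adjoin L, hF']
    exact IntermediateField.adjoin.mono K _ _ Set.subset_union_left
  exact h1 x.2

theorem dsclr_qExpand_mem (hF' : F' = IntermediateField.adjoin K (dsclrGenSet L p)) (x : L.F) :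
    ModularCurve.qExpand K p (x : LaurentSeries K) ∈ F' := by
  have h1 : (L.F).map (qExpandAlgHomC K p) ≤ F' := by
    rw [dsclr_F_eq_adjoin L, IntermediateField.adjoin_map, IntermediateField.adjoin_le_iff, hF']
    rintro y ⟨z, ⟨x, hx, rfl⟩, rfl⟩
    exact IntermediateField.subset_adjoin K _ (Or.inr ⟨x, hx, rfl⟩)
  exact h1 ⟨x, x.2, rfl⟩

variable (L p F')

/-- the generators of the ring of the raised level. -/
def dsclrRGen : Set F' :=
  {y | ∃ x : L.R, (y : LaurentSeries K) = ((x : L.F) : LaurentSeries K) ∨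
    (y : LaurentSeries K) = ModularCurve.qExpand K p ((x : L.F) : LaurentSeries K)}

/-- the ring of the raised level : generated by `L.R` and `L.R(q^p)`. -/
def dsclrRing : Subalgebra K F' := Algebra.adjoin K (dsclrRGen L p F')

variable {L p F'}

theorem dsclr_hol (x : dsclrRing L p F') : DsclrHol ι ((x : F') : LaurentSeries K) := by
  obtain ⟨x, hx⟩ := x
  induction hx using Algebra.adjoin_induction with
  | mem y hy =>
      obtain ⟨r, hr | hr⟩ := hy
      · show DsclrHol ι (y : LaurentSeries K)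
        rw [hr]
        exact ⟨L.toHol r, L.hasCuspExp r⟩
      · show DsclrHol ι (y : LaurentSeries K)
        rw [hr]
        exact DsclrHol.qExpand p ⟨L.toHol r, L.hasCuspExp r⟩
  | algebraMap c => exact DsclrHol.algebraMap c
  | add x y _ _ hx hy => exact hx.add hy
  | mul x y _ _ hx hy => exact hx.mul hy

end Raise

section Raise2

variable {L : DscLevel K ι} {p : ℕ} [NeZero p] {F' : IntermediateField K (LaurentSeries K)}

/-- the elements of `L.R`, inside the raised ring. -/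
def dsclrIncl (hF' : F' = IntermediateField.adjoin K (dsclrGenSet L p)) (x : L.R) :
    dsclrRing L p F' :=
  ⟨⟨((x : L.F) : LaurentSeries K), dsclr_coe_mem hF' x⟩, Algebra.subset_adjoin ⟨x, Or.inl rfl⟩⟩

/-- the elements `x(q^p)`, `x ∈ L.R`, inside the raised ring. -/
def dsclrQExp (hF' : F' = IntermediateField.adjoin K (dsclrGenSet L p)) (x : L.R) :
    dsclrRing L p F' :=
  ⟨⟨ModularCurve.qExpand K p ((x : L.F) : LaurentSeries K), dsclr_qExpand_mem hF' x⟩,
    Algebra.subset_adjoin ⟨x, Or.inr rfl⟩⟩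

theorem dsclr_gens_top (hF' : F' = IntermediateField.adjoin K (dsclrGenSet L p)) :
    IntermediateField.adjoin K ((fun y : F' => (y : LaurentSeries K)) ⁻¹' dsclrGenSet L p) = ⊤ :=
  dsclr_adjoin_preimage_eq_top F' _ hF'

theorem dsclr_gens_sub (y : F') (hy : (y : LaurentSeries K) ∈ dsclrGenSet L p) :
    y ∈ dsclrRing L p F' := by
  rcases hy with ⟨x, hx, e⟩ | ⟨x, hx, e⟩
  · exact Algebra.subset_adjoin ⟨⟨x, L.gens_sub x hx⟩, Or.inl e.symm⟩
  · exact Algebra.subset_adjoin ⟨⟨x, L.gens_sub x hx⟩, Or.inr e.symm⟩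

theorem dsclr_isFractionRing (hF' : F' = IntermediateField.adjoin K (dsclrGenSet L p)) :
    IsFractionRing (dsclrRing L p F') F' := by
  refine IsFractionRing.of_field _ _ fun z => ?_
  have hz : z ∈ IntermediateField.adjoin K
      ((fun y : F' => (y : LaurentSeries K)) ⁻¹' dsclrGenSet L p) := by
    rw [dsclr_gens_top hF']
    exact IntermediateField.mem_top
  obtain ⟨x, hx, y, hy, e⟩ := IntermediateField.mem_adjoin_iff_div.mp hz
  have hle : Algebra.adjoin K ((fun y : F' => (y : LaurentSeries K)) ⁻¹' dsclrGenSet L p) ≤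
      dsclrRing L p F' := Algebra.adjoin_le fun y hy => dsclr_gens_sub y hy
  exact ⟨⟨x, hle hx⟩, ⟨y, hle hy⟩, e⟩

end Raise2

section Raise3

variable (L : DscLevel K ι) (p : ℕ) [NeZero p] (F' : IntermediateField K (LaurentSeries K))

/-- THE BRIDGE of the raised level. -/
def dsclrToHol : dsclrRing L p F' →+* HolRing :=
  (dsclr_exists_toHol F' (dsclrRing L p F') (fun x => dsclr_hol x)).choose

theorem dsclr_hasCuspExp_toHol (x : dsclrRing L p F') :
    HasCuspExp 1 (dsclrToHol L p F' x : ℍ → ℂ) (coeffMap ι ((x : F') : LaurentSeries K)) :=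
  (dsclr_exists_toHol F' (dsclrRing L p F') (fun x => dsclr_hol x)).choose_spec x

variable {L p F'}

theorem dsclrToHol_incl (hF' : F' = IntermediateField.adjoin K (dsclrGenSet L p)) (x : L.R) :
    dsclrToHol L p F' (dsclrIncl hF' x) = L.toHol x :=
  dsclr_hol_ext (dsclr_hasCuspExp_toHol L p F' _) (L.hasCuspExp x)

theorem dsclrToHol_qExp (hF' : F' = IntermediateField.adjoin K (dsclrGenSet L p)) (x : L.R) :
    dsclrToHol L p F' (dsclrQExp hF' x) = dsclrComp p 0 1 (L.toHol x) := by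
  refine dsclr_hol_ext (dsclr_hasCuspExp_toHol L p F' _) ?_
  show HasCuspExp 1 _ (coeffMap ι (ModularCurve.qExpand K p ((x : L.F) : LaurentSeries K)))
  rw [coeffMap_qExpand]
  exact dsclr_hasCuspExp_comp p (L.hasCuspExp x)

theorem dsclrToHol_algebraMap (c : K) :
    dsclrToHol L p F' (algebraMap K (dsclrRing L p F') c) = HolRing.C (ι c) := by
  refine dsclr_hol_ext (dsclr_hasCuspExp_toHol L p F' _) ?_
  show HasCuspExp 1 _ (coeffMap ι (algebraMap K (LaurentSeries K) c))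
  rw [dsclr_coeffMap_algebraMap]
  exact HasCuspExp.const (ι c)

theorem dsclr_smul_C (γ : SL(2, ℤ)) (c : ℂ) : γ • HolRing.C c = HolRing.C c := by
  apply Subtype.ext
  funext τ
  rfl

variable (L p F')

/-- the group of the raised level : the full stabiliser. -/
def dsclrGamma : Subgroup SL(2, ℤ) where
  carrier := {γ | ∀ x : dsclrRing L p F', γ • dsclrToHol L p F' x = dsclrToHol L p F' x}
  one_mem' := fun x => one_smul _ _
  mul_mem' := fun {a b} ha hb x => by rw [mul_smul, hb x, ha x]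
  inv_mem' := fun {a} ha x => inv_smul_eq_iff.mpr (ha x).symm

variable {L p F'}

theorem dsclr_mem_Gamma_of (hF' : F' = IntermediateField.adjoin K (dsclrGenSet L p))
    (γ : SL(2, ℤ)) (h1 : ∀ x : L.R, γ • L.toHol x = L.toHol x)
    (h2 : ∀ x : L.R, γ • dsclrComp p 0 1 (L.toHol x) = dsclrComp p 0 1 (L.toHol x)) :
    γ ∈ dsclrGamma L p F' := by
  rintro ⟨x, hx⟩
  induction hx using Algebra.adjoin_induction with
  | mem y hy =>
      obtain ⟨r, hr | hr⟩ := hy
      · have e : (⟨y, Algebra.subset_adjoin ⟨r, Or.inl hr⟩⟩ : dsclrRing L p F') =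
            dsclrIncl hF' r := Subtype.ext (Subtype.ext hr)
        rw [e, dsclrToHol_incl, h1]
      · have e : (⟨y, Algebra.subset_adjoin ⟨r, Or.inr hr⟩⟩ : dsclrRing L p F') =
            dsclrQExp hF' r := Subtype.ext (Subtype.ext hr)
        rw [e, dsclrToHol_qExp, h2]
  | algebraMap c =>
      have e : (⟨algebraMap K F' c, Subalgebra.algebraMap_mem _ c⟩ : dsclrRing L p F') =
          algebraMap K (dsclrRing L p F') c := rfl
      rw [e, dsclrToHol_algebraMap, dsclr_smul_C]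
  | add x y hx hy hx' hy' =>
      have e : (⟨x + y, add_mem hx hy⟩ : dsclrRing L p F') = ⟨x, hx⟩ + ⟨y, hy⟩ := rfl
      rw [e, map_add, smul_add, hx', hy']
  | mul x y hx hy hx' hy' =>
      have e : (⟨x * y, mul_mem hx hy⟩ : dsclrRing L p F') = ⟨x, hx⟩ * ⟨y, hy⟩ := rfl
      rw [e, map_mul, smul_mul', hx', hy']

theorem dsclr_mem_Gamma_iff (hF' : F' = IntermediateField.adjoin K (dsclrGenSet L p))
    (γ : SL(2, ℤ)) : γ ∈ dsclrGamma L p F' ↔ (∀ x : L.R, γ • L.toHol x = L.toHol x) ∧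
      ∀ x : L.R, γ • dsclrComp p 0 1 (L.toHol x) = dsclrComp p 0 1 (L.toHol x) := by
  refine ⟨fun h => ⟨fun x => ?_, fun x => ?_⟩, fun h => dsclr_mem_Gamma_of hF' γ h.1 h.2⟩
  · have := h (dsclrIncl hF' x)
    rwa [dsclrToHol_incl] at this
  · have := h (dsclrQExp hF' x)
    rwa [dsclrToHol_qExp] at this

end Raise3

section Raise4

variable (L : DscLevel K ι) (p : ℕ) [NeZero p]

/-- the family `x ↦ (toHol x)(p τ)`. -/
def dsclrFam : L.R → HolRing := fun x => dsclrComp p 0 1 (L.toHol x)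

/-- the family `x ↦ toHol x`. -/
def dsclrFam₁ : L.R → HolRing := fun x => L.toHol x

variable {L}

theorem dsclr_smul_out (ξ : SL(2, ℤ)) (x : L.R) :
    (QuotientGroup.mk ξ : SL(2, ℤ) ⧸ L.Γ).out • L.toHol x = ξ • L.toHol x := by
  obtain ⟨γ, hγ⟩ := QuotientGroup.mk_out_eq_mul L.Γ ξ
  rw [hγ, mul_smul, L.inv γ γ.2 x]

variable (L)

theorem dsclr_orbit_finite : (MulAction.orbit SL(2, ℤ) (dsclrFam L p)).Finite := by
  classical
  let Ψ : (SL(2, ℤ) ⧸ L.Γ) × Fin (p + 1) × Fin (p + 1) × Fin (p + 1) → (L.R → HolRing) :=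
    fun t x => dsclrComp (t.2.1 : ℕ) ((t.2.2.1 : ℕ) : ℤ) (t.2.2.2 : ℕ) (t.1.out • L.toHol x)
  refine (Set.finite_range Ψ).subset ?_
  rintro _ ⟨g, rfl⟩
  obtain ⟨g', A, D, B, hA, hD, hAD, hB0, hBD, hsm⟩ := dsclr_smul_comp p (NeZero.ne p) g
  have hAp : A < p + 1 :=
    Nat.lt_succ_of_le (Nat.le_of_dvd (Nat.pos_of_ne_zero (NeZero.ne p)) ⟨D, hAD.symm⟩)
  have hDp : D < p + 1 :=
    Nat.lt_succ_of_le (Nat.le_of_dvd (Nat.pos_of_ne_zero (NeZero.ne p)) ⟨A, by rw [← hAD, mul_comm]⟩)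
  have hBp : B.toNat < p + 1 := by omega
  refine ⟨(QuotientGroup.mk g', ⟨A, hAp⟩, ⟨B.toNat, hBp⟩, ⟨D, hDp⟩), ?_⟩
  funext x
  show dsclrComp A ((B.toNat : ℕ) : ℤ) D ((QuotientGroup.mk g' : SL(2, ℤ) ⧸ L.Γ).out • L.toHol x) =
    g • dsclrComp p 0 1 (L.toHol x)
  rw [dsclr_smul_out, Int.toNat_of_nonneg hB0, hsm]

theorem dsclr_finiteIndex_stab : (MulAction.stabilizer SL(2, ℤ) (dsclrFam L p)).FiniteIndex := by
  have : Finite (MulAction.orbit SL(2, ℤ) (dsclrFam L p)) := (dsclr_orbit_finite L p).to_subtype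
  have : Finite (SL(2, ℤ) ⧸ MulAction.stabilizer SL(2, ℤ) (dsclrFam L p)) :=
    Finite.of_equiv _ (MulAction.orbitEquivQuotientStabilizer SL(2, ℤ) (dsclrFam L p))
  exact Subgroup.finiteIndex_of_finite_quotient

variable {L p} {F' : IntermediateField K (LaurentSeries K)}

theorem dsclr_finiteIndex (hF' : F' = IntermediateField.adjoin K (dsclrGenSet L p)) :
    (dsclrGamma L p F').FiniteIndex := by
  have := dsclr_finiteIndex_stab L p
  have := L.finiteIndex
  have hle : L.Γ ⊓ MulAction.stabilizer SL(2, ℤ) (dsclrFam L p) ≤ dsclrGamma L p F' := by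
    rintro γ ⟨h1, h2⟩
    refine dsclr_mem_Gamma_of hF' γ (fun x => L.inv γ h1 x) (fun x => ?_)
    exact congrFun (MulAction.mem_stabilizer_iff.mp h2) x
  exact Subgroup.finiteIndex_of_le hle

/-- expansions of the conjugates, for the raised level. -/
theorem dsclr_conj [IsAlgClosed K] (hF' : F' = IntermediateField.adjoin K (dsclrGenSet L p))
    (g : SL(2, ℤ)) (x : dsclrRing L p F') : ∃ S : LaurentSeries K,
      HasCuspExp (L.h * p) ((g • dsclrToHol L p F' x : HolRing) : ℍ → ℂ) (coeffMap ι S) := by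
  obtain ⟨x, hx⟩ := x
  induction hx using Algebra.adjoin_induction with
  | mem y hy =>
      obtain ⟨r, hr | hr⟩ := hy
      · have e : (⟨y, Algebra.subset_adjoin ⟨r, Or.inl hr⟩⟩ : dsclrRing L p F') =
            dsclrIncl hF' r := Subtype.ext (Subtype.ext hr)
        rw [e, dsclrToHol_incl]
        obtain ⟨S, hS⟩ := L.conj g r
        exact ⟨ModularCurve.qExpand K p S, by rw [coeffMap_qExpand]; exact hS.qExpand p⟩
      · have e : (⟨y, Algebra.subset_adjoin ⟨r, Or.inr hr⟩⟩ : dsclrRing L p F') =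
            dsclrQExp hF' r := Subtype.ext (Subtype.ext hr)
        rw [e, dsclrToHol_qExp]
        exact dsclr_conj_comp p (L.toHol r) (fun g => L.conj g r) g
  | algebraMap c =>
      have e : (⟨algebraMap K F' c, Subalgebra.algebraMap_mem _ c⟩ : dsclrRing L p F') =
          algebraMap K (dsclrRing L p F') c := rfl
      rw [e, dsclrToHol_algebraMap, dsclr_smul_C]
      exact ⟨algebraMap K (LaurentSeries K) c, by
        rw [dsclr_coeffMap_algebraMap]; exact HasCuspExp.const (ι c)⟩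
  | add x y hx hy hx' hy' =>
      have e : (⟨x + y, add_mem hx hy⟩ : dsclrRing L p F') = ⟨x, hx⟩ + ⟨y, hy⟩ := rfl
      obtain ⟨S, hS⟩ := hx'
      obtain ⟨T, hT⟩ := hy'
      refine ⟨S + T, ?_⟩
      rw [e, map_add, smul_add, map_add]
      exact hS.add hT
  | mul x y hx hy hx' hy' =>
      have e : (⟨x * y, mul_mem hx hy⟩ : dsclrRing L p F') = ⟨x, hx⟩ * ⟨y, hy⟩ := rfl
      obtain ⟨S, hS⟩ := hx'
      obtain ⟨T, hT⟩ := hy'
      refine ⟨S * T, ?_⟩
      rw [e, map_mul, smul_mul', map_mul]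
      exact hS.mul hT

end Raise4

section Raise5

/-- LEVEL RAISING : the level datum of the field generated by `L.F` and `L.F(q^p)`. -/
def dsclRaise [IsAlgClosed K] (L : DscLevel K ι) (p : ℕ) [NeZero p]
    (F' : IntermediateField K (LaurentSeries K))
    (hF' : F' = IntermediateField.adjoin K (dsclrGenSet L p)) : DscLevel K ι where
  Γ := dsclrGamma L p F'
  finiteIndex := dsclr_finiteIndex hF'
  h := L.h * p
  h_ne := Nat.mul_ne_zero L.h_ne (NeZero.ne p)
  F := F'
  R := dsclrRing L p F'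
  frac := dsclr_isFractionRing hF'
  gens := (fun y : F' => (y : LaurentSeries K)) ⁻¹' dsclrGenSet L p
  gens_finite := (dsclr_genSet_finite L p).preimage Subtype.val_injective.injOn
  gens_sub := fun y hy => dsclr_gens_sub y hy
  gens_top := dsclr_gens_top hF'
  toHol := dsclrToHol L p F'
  hasCuspExp := dsclr_hasCuspExp_toHol L p F'
  j_mem := ⟨dsclrIncl hF' L.jR, L.coe_jR⟩
  inv := fun _ hγ x => hγ x
  sep := fun _ h => h
  conj := fun g x => dsclr_conj hF' g x

variable {L : DscLevel K ι} {p : ℕ} [NeZero p] {F' : IntermediateField K (LaurentSeries K)}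

section Exports

variable [IsAlgClosed K] (hF' : F' = IntermediateField.adjoin K (dsclrGenSet L p))

theorem dsclRaise_F : (dsclRaise L p F' hF').F = F' := rfl

theorem dsclRaise_h : (dsclRaise L p F' hF').h = L.h * p := rfl

theorem dsclRaise_R : (dsclRaise L p F' hF').R = dsclrRing L p F' := rfl

theorem dsclRaise_Γ : (dsclRaise L p F' hF').Γ = dsclrGamma L p F' := rfl

theorem dsclRaise_toHol : (dsclRaise L p F' hF').toHol = dsclrToHol L p F' := rfl

theorem dsclRaise_gens : (dsclRaise L p F' hF').gens =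
    (fun y : F' => (y : LaurentSeries K)) ⁻¹' dsclrGenSet L p := rfl

end Exports

theorem dsclr_le (hF' : F' = IntermediateField.adjoin K (dsclrGenSet L p)) : L.F ≤ F' :=
  fun x hx => dsclr_coe_mem hF' ⟨x, hx⟩

/-- `α` : the inclusion `L.F → F'`. -/
def dsclrAlpha (hF' : F' = IntermediateField.adjoin K (dsclrGenSet L p)) : L.F →ₐ[K] F' :=
  IntermediateField.inclusion (dsclr_le hF')

/-- `β` : the embedding `x ↦ x(q^p)`, `L.F → F'`. -/
def dsclrBeta (hF' : F' = IntermediateField.adjoin K (dsclrGenSet L p)) : L.F →ₐ[K] F' :=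
  ((qExpandAlgHomC K p).comp L.F.val).codRestrict F'.toSubalgebra
    (fun x => dsclr_qExpand_mem hF' x)

@[simp] theorem coe_dsclrAlpha (hF' : F' = IntermediateField.adjoin K (dsclrGenSet L p))
    (x : L.F) : ((dsclrAlpha hF' x : F') : LaurentSeries K) = (x : LaurentSeries K) := rfl

@[simp] theorem coe_dsclrBeta (hF' : F' = IntermediateField.adjoin K (dsclrGenSet L p))
    (x : L.F) : ((dsclrBeta hF' x : F') : LaurentSeries K) =
      ModularCurve.qExpand K p (x : LaurentSeries K) := rfl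

theorem dsclrAlpha_mem (hF' : F' = IntermediateField.adjoin K (dsclrGenSet L p)) (x : L.R) :
    dsclrAlpha hF' (x : L.F) ∈ dsclrRing L p F' := (dsclrIncl hF' x).2

theorem dsclrBeta_mem (hF' : F' = IntermediateField.adjoin K (dsclrGenSet L p)) (x : L.R) :
    dsclrBeta hF' (x : L.F) ∈ dsclrRing L p F' := (dsclrQExp hF' x).2

theorem coe_dsclrIncl (hF' : F' = IntermediateField.adjoin K (dsclrGenSet L p)) (x : L.R) :
    ((dsclrIncl hF' x : dsclrRing L p F') : F') = dsclrAlpha hF' (x : L.F) := rfl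

theorem coe_dsclrQExp (hF' : F' = IntermediateField.adjoin K (dsclrGenSet L p)) (x : L.R) :
    ((dsclrQExp hF' x : dsclrRing L p F') : F') = dsclrBeta hF' (x : L.F) := rfl

theorem dsclrAlpha_jF [IsAlgClosed K] (hF' : F' = IntermediateField.adjoin K (dsclrGenSet L p)) :
    dsclrAlpha hF' L.jF = (dsclRaise L p F' hF').jF :=
  Subtype.ext (by rw [coe_dsclrAlpha, L.coe_jF]; exact ((dsclRaise L p F' hF').coe_jF).symm)

/-! ### the group of the raised level -/

theorem dsclrComp_injective (A : ℕ) (B : ℤ) (D : ℕ) : Function.Injective (dsclrComp A B D) := by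
  intro f g h
  apply Subtype.ext
  funext τ
  have := congrArg (fun F : HolRing => (F : ℍ → ℂ) ((utGL A B D)⁻¹ • τ)) h
  simpa only [dsclrComp_apply, smul_inv_smul] using this

/-- `γ⁻¹ • f(p ·) = ((γ')⁻¹ • f)(p ·)` for `γ = [a, b; p c', d]`, `γ' = [a, p b; c', d]`. -/
theorem dsclr_inv_smul_comp (γ : SL(2, ℤ)) (c' : ℤ) (hc : γ 1 0 = p * c') (f : HolRing) :
    γ⁻¹ • dsclrComp p 0 1 f = dsclrComp p 0 1 ((unstab_conjSL p γ c' hc)⁻¹ • f) := by
  apply Subtype.ext
  funext τ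
  rw [HolRing.smul_apply, dsclrComp_apply, dsclrComp_apply, HolRing.smul_apply, inv_inv, inv_inv]
  have e : utGL p 0 1 • (γ • τ) = unstab_conjSL p γ c' hc • (utGL p 0 1 • τ) := by
    have h1 : utGL p 0 1 • (γ • τ) =
        (utGL p 0 1 * Matrix.SpecialLinearGroup.mapGL ℝ γ) • τ := by
      rw [mul_smul]; rfl
    have h2 : unstab_conjSL p γ c' hc • (utGL p 0 1 • τ) =
        (Matrix.SpecialLinearGroup.mapGL ℝ (unstab_conjSL p γ c' hc) * utGL p 0 1) • τ := by
      rw [mul_smul]; rfl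
    rw [h1, h2, utGL_mul_mapGL p (NeZero.ne p) γ c' hc]
  rw [e]

theorem dsclr_comp_jHol : dsclrComp p 0 1 jHol = jdHol p := rfl

/-- THE GROUP of the raised level. -/
theorem dsclr_mem_Gamma_iff_conj (hF' : F' = IntermediateField.adjoin K (dsclrGenSet L p))
    (γ : SL(2, ℤ)) : γ ∈ dsclrGamma L p F' ↔
      γ ∈ L.Γ ∧ ∃ (c' : ℤ) (hc : γ 1 0 = p * c'), unstab_conjSL p γ c' hc ∈ L.Γ := by
  constructor
  · intro h
    have hinv : γ⁻¹ ∈ dsclrGamma L p F' := inv_mem h
    obtain ⟨h1, -⟩ := (dsclr_mem_Gamma_iff hF' γ).mp h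
    obtain ⟨-, h2⟩ := (dsclr_mem_Gamma_iff hF' γ⁻¹).mp hinv
    refine ⟨L.sep γ h1, ?_⟩
    have hj : γ • jdHol p = jdHol p := by
      obtain ⟨-, h2'⟩ := (dsclr_mem_Gamma_iff hF' γ).mp h
      have := h2' L.jR
      rwa [dscl_toHol_jR, dsclr_comp_jHol] at this
    have hG0 := mem_Gamma0_of_smul_jdHol p γ hj
    rw [CongruenceSubgroup.Gamma0_mem, ZMod.intCast_zmod_eq_zero_iff_dvd] at hG0
    obtain ⟨c', hc⟩ := hG0
    refine ⟨c', hc, ?_⟩
    have : (unstab_conjSL p γ c' hc)⁻¹ ∈ L.Γ := by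
      apply L.sep
      intro x
      apply dsclrComp_injective p 0 1
      rw [← dsclr_inv_smul_comp γ c' hc, h2 x]
    simpa using inv_mem this
  · rintro ⟨h1, c', hc, h2⟩
    have : γ⁻¹ ∈ dsclrGamma L p F' := by
      refine dsclr_mem_Gamma_of hF' γ⁻¹ (fun x => L.inv _ (inv_mem h1) x) (fun x => ?_)
      rw [dsclr_inv_smul_comp γ c' hc, L.inv _ (inv_mem h2) x]
    simpa using inv_mem this

/-- if `L.Γ ∩ Γ₀(p)` is normalised by `diag(p, 1)`, the group of the raised level is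
`L.Γ ∩ Γ₀(p)`. -/
theorem dsclr_Gamma_eq (hF' : F' = IntermediateField.adjoin K (dsclrGenSet L p))
    (hnorm : ∀ γ ∈ L.Γ, ∀ (c' : ℤ) (hc : γ 1 0 = p * c'), unstab_conjSL p γ c' hc ∈ L.Γ) :
    dsclrGamma L p F' = L.Γ ⊓ CongruenceSubgroup.Gamma0 p := by
  ext γ
  rw [dsclr_mem_Gamma_iff_conj hF', Subgroup.mem_inf, CongruenceSubgroup.Gamma0_mem,
    ZMod.intCast_zmod_eq_zero_iff_dvd]
  constructor
  · rintro ⟨h1, c', hc, -⟩
    exact ⟨h1, ⟨c', hc⟩⟩
  · rintro ⟨h1, c', hc⟩
    exact ⟨h1, c', hc, hnorm γ h1 c' hc⟩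

theorem dsclRaise_Γ_eq [IsAlgClosed K] (hF' : F' = IntermediateField.adjoin K (dsclrGenSet L p))
    (hnorm : ∀ γ ∈ L.Γ, ∀ (c' : ℤ) (hc : γ 1 0 = p * c'), unstab_conjSL p γ c' hc ∈ L.Γ) :
    (dsclRaise L p F' hF').Γ = L.Γ ⊓ CongruenceSubgroup.Gamma0 p :=
  dsclr_Gamma_eq hF' hnorm

/-! ### the bridge of the raised level on `α` and `β` -/

theorem dsclRaise_toHol_alpha [IsAlgClosed K]
    (hF' : F' = IntermediateField.adjoin K (dsclrGenSet L p)) (x : L.R) :
    (dsclRaise L p F' hF').toHol ⟨dsclrAlpha hF' (x : L.F), dsclrAlpha_mem hF' x⟩ = L.toHol x :=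
  dsclrToHol_incl hF' x

theorem dsclRaise_toHol_beta [IsAlgClosed K]
    (hF' : F' = IntermediateField.adjoin K (dsclrGenSet L p)) (x : L.R) :
    (dsclRaise L p F' hF').toHol ⟨dsclrBeta hF' (x : L.F), dsclrBeta_mem hF' x⟩ =
      dsclrComp p 0 1 (L.toHol x) :=
  dsclrToHol_qExp hF' x

theorem dsclr_coe_smul (τ : ℍ) : ((utGL p 0 1 • τ : ℍ) : ℂ) = (p : ℂ) * τ := by
  rw [coe_utGL_smul (NeZero.ne p) one_ne_zero 0 τ]
  simp

end Raise5

section Raise6

/-- the normalisation hypothesis of `dsclRaise_Γ_eq` holds for every group between `Γ₁(M)` and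
`Γ₀(M)`, `p` prime to `M`. -/
theorem dsclr_norm_of_le {Γ : Subgroup SL(2, ℤ)} {M p : ℕ} (hpM : Nat.Coprime p M)
    (h1 : CongruenceSubgroup.Gamma1 M ≤ Γ) (h0 : Γ ≤ CongruenceSubgroup.Gamma0 M)
    (γ : SL(2, ℤ)) (hγ : γ ∈ Γ) (c' : ℤ) (hc : γ 1 0 = p * c') :
    unstab_conjSL p γ c' hc ∈ Γ := by
  have hG0 := h0 hγ
  rw [CongruenceSubgroup.Gamma0_mem] at hG0
  have hu : IsUnit ((p : ℕ) : ZMod M) := (ZMod.isUnit_iff_coprime p M).mpr hpM
  have hc0 : ((c' : ℤ) : ZMod M) = 0 := by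
    have : ((p : ℕ) : ZMod M) * ((c' : ℤ) : ZMod M) = 0 := by
      rw [← hG0, hc]; push_cast; ring
    exact (hu.mul_right_eq_zero).mp this
  have hdet : γ 0 0 * γ 1 1 - γ 0 1 * γ 1 0 = 1 := by
    have h := γ.det_coe
    rw [Matrix.det_fin_two] at h
    exact h
  have hmem : unstab_conjSL p γ c' hc * γ⁻¹ ∈ CongruenceSubgroup.Gamma1 M := by
    rw [CongruenceSubgroup.Gamma1_mem]
    have e00 : (unstab_conjSL p γ c' hc * γ⁻¹) 0 0 = 1 + γ 0 1 * γ 1 0 - p * γ 0 1 * γ 1 0 := by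
      rw [Matrix.SpecialLinearGroup.coe_mul, Matrix.SpecialLinearGroup.coe_inv,
        Matrix.adjugate_fin_two, Matrix.mul_apply, Fin.sum_univ_two]
      simp only [unstab_conjSL, Matrix.of_apply, Matrix.cons_val', Matrix.cons_val_zero,
        Matrix.cons_val_one, Matrix.cons_val_fin_one]
      linear_combination hdet
    have e11 : (unstab_conjSL p γ c' hc * γ⁻¹) 1 1 = 1 + γ 0 1 * γ 1 0 - c' * γ 0 1 := by
      rw [Matrix.SpecialLinearGroup.coe_mul, Matrix.SpecialLinearGroup.coe_inv,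
        Matrix.adjugate_fin_two, Matrix.mul_apply, Fin.sum_univ_two]
      simp only [unstab_conjSL, Matrix.of_apply, Matrix.cons_val', Matrix.cons_val_zero,
        Matrix.cons_val_one, Matrix.cons_val_fin_one]
      linear_combination hdet
    have e10 : (unstab_conjSL p γ c' hc * γ⁻¹) 1 0 = c' * γ 1 1 - γ 1 1 * γ 1 0 := by
      rw [Matrix.SpecialLinearGroup.coe_mul, Matrix.SpecialLinearGroup.coe_inv,
        Matrix.adjugate_fin_two, Matrix.mul_apply, Fin.sum_univ_two]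
      simp only [unstab_conjSL, Matrix.of_apply, Matrix.cons_val', Matrix.cons_val_zero,
        Matrix.cons_val_one, Matrix.cons_val_fin_one]
      ring
    refine ⟨?_, ?_, ?_⟩
    · rw [e00]; push_cast; rw [hG0]; ring
    · rw [e11]; push_cast; rw [hG0, hc0]; ring
    · rw [e10]; push_cast; rw [hG0, hc0]; ring
  have := mul_mem (h1 hmem) hγ
  rwa [inv_mul_cancel_right] at this

end Raise6

section Raise7

variable [IsAlgClosed K] {L : DscLevel K ι} {p : ℕ} [NeZero p]
  {F' : IntermediateField K (LaurentSeries K)}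

/-- the ring of the raised level contains `L.R` … -/
theorem dsclRaise_exists_alpha (hF' : F' = IntermediateField.adjoin K (dsclrGenSet L p))
    (x : L.R) : ∃ y : (dsclRaise L p F' hF').R,
      ((y : (dsclRaise L p F' hF').F) : LaurentSeries K) = ((x : L.F) : LaurentSeries K) :=
  ⟨dsclrIncl hF' x, rfl⟩

/-- … and `L.R(q^p)`. -/
theorem dsclRaise_exists_beta (hF' : F' = IntermediateField.adjoin K (dsclrGenSet L p))
    (x : L.R) : ∃ y : (dsclRaise L p F' hF').R,
      ((y : (dsclRaise L p F' hF').F) : LaurentSeries K) =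
        ModularCurve.qExpand K p ((x : L.F) : LaurentSeries K) :=
  ⟨dsclrQExp hF' x, rfl⟩

end Raise7

end Fermat.Agent.DS
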