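/-
Program DS (S48), package (C), row C2 — generic level datum: the expansions at the cusps as
embeddings `dsclCuspEmb L g : L.F →+* ℂ((s))` of the function field, and the number of places over
`j = ∞` (= number of `⟨T⟩`-orbits on `SL(2,ℤ) ⧸ Γ`).
(Generic port of `S24/EmbDefs.lean` + `S24/EmbCusp.lean`.)
-/
import Mathlib
import Fermat.Agent.S24.EmbCusp
import Fermat.Agent.DS.C.Lv.Degree

set_option autoImplicit false
set_option linter.unusedSectionVars false

noncomputable section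

namespace Fermat.Agent.DS

open UpperHalfPlane ModularCurve IntermediateField AlgebraicCurve Fermat.Agent.S24
open scoped MatrixGroups Manifold ModularForm Real

variable {K : Type} [Field K] [Algebra ℚ K] [IsAlgClosed K] {ι : K →+* ℂ} (L : DscLevel K ι)

/-- Extension of an injective ring hom `L.R → E` (`E` a field) to the fraction field. -/
def dsclLiftF {E : Type*} [Field E] (φ : L.R →+* E) (hφ : Function.Injective φ) :
    L.F →+* E :=
  haveI := L.frac
  IsFractionRing.lift (A := L.R) (K := L.F) hφ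

theorem dsclLiftF_apply {E : Type*} [Field E] (φ : L.R →+* E) (hφ : Function.Injective φ)
    (x : L.R) : dsclLiftF L φ hφ (x : L.F) = φ x := by
  have := L.frac
  exact IsFractionRing.lift_algebraMap hφ x

theorem dscl_cuspHomC_injective (g : SL(2, ℤ)) :
    Function.Injective ((coeffMap ι).comp (dsclCuspHom L g)) := by
  rw [RingHom.coe_comp]
  exact (embcusp_coeffMap_injective ι ι.injective).comp (dscl_cuspHom_injective L g)

/-- Expansion at `i∞` of the conjugate by `g`, on the whole function field. -/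
def dsclCuspEmb (g : SL(2, ℤ)) : L.F →+* LaurentSeries ℂ :=
  dsclLiftF L ((coeffMap ι).comp (dsclCuspHom L g)) (dscl_cuspHomC_injective L g)

theorem dsclCuspEmb_coe (g : SL(2, ℤ)) (x : L.R) :
    dsclCuspEmb L g (x : L.F) = coeffMap ι (dsclCuspHom L g x) :=
  dsclLiftF_apply L _ _ x

/-- Two ring homs on the function field which agree on `L.R` are equal. -/
theorem dscl_ringHom_ext {E : Type*} [Field E] {φ ψ : L.F →+* E}
    (h : ∀ x : L.R, φ (x : L.F) = ψ (x : L.F)) :
    φ = ψ := by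
  have := L.frac
  refine IsLocalization.ringHom_ext (nonZeroDivisors (L.R)) ?_
  ext x
  exact h x

theorem dsclCuspEmb_algebraMap (g : SL(2, ℤ)) (c : K) :
    dsclCuspEmb L g (algebraMap K (L.F) c) = HahnSeries.C (ι c) := by
  have h : algebraMap K (L.F) c =
      ((algebraMap K (L.R) c : L.R) : L.F) := rfl
  rw [h, dsclCuspEmb_coe, dscl_cuspHom_algebraMap, embcusp_coeffMap_C]

theorem dsclCuspEmb_jF (g : SL(2, ℤ)) :
    dsclCuspEmb L g (L.jF) = coeffMap ι (qExpand K L.h (coeffEmb K jq)) := by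
  have h : L.jF = ((L.jR : L.R) : L.F) := rfl
  rw [h, dsclCuspEmb_coe, dscl_cuspHom_jR]


/-- The expansion of `j` in the parameter `exp(2πiτ/L)` has a pole of order `L`. -/
theorem dscl_order_jF :
    (coeffMap ι (qExpand K L.h (coeffEmb K jq))).order = -(L.h : ℤ) := by
  set X : LaurentSeries ℂ := coeffMap ι (qExpand K L.h (coeffEmb K jq)) with hX
  have hcoeff : X.coeff (-(L.h : ℤ)) = 1 := by
    have h1 : -(L.h : ℤ) = (L.h : ℤ) * (-1) := by ring
    rw [hX, coeffMap_coeff, h1, qExpand_coeff_mul, coeffEmb_coeff, coeff_jq_neg_one, map_one,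
      map_one]
  have hzero : ∀ m : ℤ, m < -(L.h : ℤ) → X.coeff m = 0 := by
    intro m hm
    rw [hX, coeffMap_coeff]
    by_cases hdvd : (L.h : ℤ) ∣ m
    · obtain ⟨k, rfl⟩ := hdvd
      have hNpos : (0 : ℤ) < (L.h : ℤ) := by exact_mod_cast NeZero.pos L.h
      have hk : k < -1 := by
        by_contra hk
        push Not at hk
        have : (L.h : ℤ) * (-1) ≤ (L.h : ℤ) * k := mul_le_mul_of_nonneg_left hk hNpos.le
        linarith
      rw [qExpand_coeff_mul, coeffEmb_coeff, coeff_jq_of_lt hk, map_zero, map_zero]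
    · rw [qExpand_coeff_of_not_dvd L.h _ hdvd, map_zero]
  have hne : X ≠ 0 := by
    intro h0
    rw [h0] at hcoeff
    simp at hcoeff
  apply le_antisymm
  · exact HahnSeries.order_le_of_coeff_ne_zero (by rw [hcoeff]; exact one_ne_zero)
  · by_contra hlt
    push Not at hlt
    exact hne (HahnSeries.coeff_order_eq_zero.mp (hzero _ hlt))


theorem dsclCuspEmb_jF_inv_order (g : SL(2, ℤ)) :
    (dsclCuspEmb L g (L.jF)⁻¹).order = (L.h : ℤ) := by
  rw [map_inv₀, dsclCuspEmb_jF]
  have hne : coeffMap ι (qExpand K L.h (coeffEmb K jq)) ≠ 0 := by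
    intro h0
    have h1 := dscl_order_jF L
    rw [h0, HahnSeries.order_zero] at h1
    have hNpos : (0 : ℤ) < (L.h : ℤ) := by exact_mod_cast NeZero.pos L.h
    linarith
  rw [embcusp_order_inv hne, dscl_order_jF, neg_neg]

/-- `dsclCuspEmb` depends only on the coset. -/
theorem dsclCuspEmb_mul_of_mem (g γ : SL(2, ℤ)) (hγ : γ ∈ L.Γ) :
    dsclCuspEmb L (g * γ) = dsclCuspEmb L g := by
  refine dscl_ringHom_ext L fun x => ?_
  rw [dsclCuspEmb_coe, dsclCuspEmb_coe, dscl_cuspHom_mul_of_mem L g γ hγ]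

/-- Distinct cosets give distinct embeddings. -/
theorem dscl_mem_of_cuspEmb_eq (g g' : SL(2, ℤ)) (h : dsclCuspEmb L g = dsclCuspEmb L g') :
    g⁻¹ * g' ∈ L.Γ := by
  refine dscl_mem_of_cuspHom_eq L g g' (RingHom.ext fun x => ?_)
  have h1 := congrArg (fun φ : L.F →+* LaurentSeries ℂ =>
    φ (x : L.F)) h
  simp only [dsclCuspEmb_coe] at h1
  exact embcusp_coeffMap_injective ι ι.injective h1

/-- Left multiplication by `T⁻¹` rotates the embedding. -/
theorem dsclCuspEmb_T_inv_mul (g : SL(2, ℤ)) (ζ : ℂˣ)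
    (hζ : (ζ : ℂ) = Complex.exp (2 * π * Complex.I / L.h)) (f : L.F) :
    rotLaurent ζ (dsclCuspEmb L g f) = dsclCuspEmb L (ModularGroup.T⁻¹ * g) f := by
  have h : (rotLaurent ζ).comp (dsclCuspEmb L g) = dsclCuspEmb L (ModularGroup.T⁻¹ * g) := by
    refine dscl_ringHom_ext L fun x => ?_
    rw [RingHom.comp_apply, dsclCuspEmb_coe, dsclCuspEmb_coe, dscl_cuspHom_T_inv_mul L g x ζ hζ]
  exact congrArg (fun φ : L.F →+* LaurentSeries ℂ => φ f) h

/-- Number of places over `j = ∞`. -/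
theorem dscl_card_places_infty :
    Nat.card {v : Place K (L.F) // v.ord (L.jF) < 0} =
      Nat.card (MulAction.orbitRel.Quotient (Subgroup.zpowers ModularGroup.T)
        (SL(2, ℤ) ⧸ L.Γ)) := by
  classical
  have : Finite (SL(2, ℤ) ⧸ L.Γ) := (inferInstance : Finite (SL(2, ℤ) ⧸ L.Γ))
  let _ : Fintype (SL(2, ℤ) ⧸ L.Γ) := Fintype.ofFinite _
  have ht : IsSepGen K (L.jF)⁻¹ := (dscl_isSepGen_jF L).inv
  obtain ⟨ζ, hζ⟩ : ∃ ζ : ℂˣ, (ζ : ℂ) = Complex.exp (2 * π * Complex.I / L.h) :=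
    ⟨Units.mk0 _ (Complex.exp_ne_zero _), rfl⟩
  have hζprim : IsPrimitiveRoot (ζ : ℂ) L.h := by
    rw [hζ]
    exact Complex.isPrimitiveRoot_exp L.h (NeZero.ne L.h)
  -- the family of embeddings
  have hout : ∀ (g : SL(2, ℤ)),
      dsclCuspEmb L (QuotientGroup.mk g : SL(2, ℤ) ⧸ L.Γ).out =
        dsclCuspEmb L g := by
    intro g
    obtain ⟨γ, hγ⟩ := QuotientGroup.mk_out_eq_mul (L.Γ) g
    rw [hγ]
    exact dsclCuspEmb_mul_of_mem L g γ γ.2
  have key := card_places_eq_card_orbits_of_embeddings ht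
    (ι := SL(2, ℤ) ⧸ L.Γ) (fun q => dsclCuspEmb L q.out)
    (by
      intro q q' h
      have h1 := dscl_mem_of_cuspEmb_eq L q.out q'.out h
      have h2 : (QuotientGroup.mk q.out : SL(2, ℤ) ⧸ L.Γ) =
          QuotientGroup.mk q'.out := QuotientGroup.eq.mpr h1
      rwa [QuotientGroup.out_eq', QuotientGroup.out_eq'] at h2)
    (by
      rw [(dscl_isSepGen_jF L).finrank_inv, dscl_finrank_jF, Nat.card_eq_fintype_card])
    (fun i j c => by rw [dsclCuspEmb_algebraMap, dsclCuspEmb_algebraMap])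
    (fun i c hc => by
      rw [dsclCuspEmb_algebraMap, HahnSeries.C_apply]
      exact HahnSeries.order_single (fun h => hc (ι.injective (by rw [h, map_zero]))))
    (fun i j => by rw [map_inv₀, map_inv₀, dsclCuspEmb_jF, dsclCuspEmb_jF])
    L.h (NeZero.pos L.h) (fun i => dsclCuspEmb_jF_inv_order L _)
    (ζ : ℂ) hζprim (rotLaurent ζ) (rotLaurent_coeff ζ)
    (MulAction.toPerm (ModularGroup.T⁻¹ : SL(2, ℤ)))
    (by
      intro q f
      rw [dsclCuspEmb_T_inv_mul L _ ζ hζ]
      have h1 : (MulAction.toPerm (ModularGroup.T⁻¹ : SL(2, ℤ)) q :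
          SL(2, ℤ) ⧸ L.Γ) =
          QuotientGroup.mk (ModularGroup.T⁻¹ * q.out) := by
        conv_lhs => rw [← QuotientGroup.out_eq' q]
        rfl
      rw [h1, hout])
  have hL : Nat.card {v : Place K (L.F) // v.ord (L.jF) < 0} =
      Nat.card {v : Place K (L.F) // 0 < v.ord (L.jF)⁻¹} := by
    refine Nat.card_congr (Equiv.subtypeEquivRight fun v => ?_)
    rw [Place.ord_inv]
    omega
  have hR : Nat.card (MulAction.orbitRel.Quotient
      (Subgroup.zpowers (MulAction.toPerm (ModularGroup.T⁻¹ : SL(2, ℤ)) :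
        Equiv.Perm (SL(2, ℤ) ⧸ L.Γ)))
      (SL(2, ℤ) ⧸ L.Γ)) =
      Nat.card (MulAction.orbitRel.Quotient (Subgroup.zpowers ModularGroup.T)
        (SL(2, ℤ) ⧸ L.Γ)) :=
    Nat.card_congr (Quotient.congr (Equiv.refl _) fun a b =>
      embcusp_orbitRel_toPerm_inv ModularGroup.T a b)
  rw [hL, key, hR]


end Fermat.Agent.DS
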