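/-
Program DS (S48), package (C), row C2 — generic level datum: the Taylor expansions at the points of
`ℍ` as embeddings `dsclPointEmb L τ₀ g : L.F →+* ℂ((t))`, and the number of places over a finite
value of `j` (= number of orbits of the stabiliser on `SL(2,ℤ) ⧸ Γ`).
(Generic port of `S24/EmbPoint.lean`.)
-/
import Mathlib
import Fermat.Agent.S24.EmbPoint
import Fermat.Agent.DS.C.Lv.EmbCusp

set_option autoImplicit false
set_option linter.unusedSectionVars false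

noncomputable section

namespace Fermat.Agent.DS

open UpperHalfPlane ModularCurve IntermediateField AlgebraicCurve Fermat.Agent.S24
open scoped MatrixGroups Manifold ModularForm Real

variable {K : Type} [Field K] [Algebra ℚ K] [IsAlgClosed K] {ι : K →+* ℂ} (L : DscLevel K ι)

/-- The ring hom `x ↦` Taylor expansion at `τ₀` of `g • toHol x`. -/
def dsclPointHom (τ₀ : ℍ) (g : SL(2, ℤ)) : L.R →+* LaurentSeries ℂ :=
  (HahnSeries.ofPowerSeries ℤ ℂ).comp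
    ((taylorDisc τ₀).comp ((MulSemiringAction.toRingHom SL(2, ℤ) HolRing g).comp (L.toHol)))

theorem dsclPointHom_apply (τ₀ : ℍ) (g : SL(2, ℤ)) (x : L.R) :
    dsclPointHom L τ₀ g x = HahnSeries.ofPowerSeries ℤ ℂ (taylorDisc τ₀ (g • L.toHol x)) := rfl

theorem dsclPointHom_injective (τ₀ : ℍ) (g : SL(2, ℤ)) : Function.Injective (dsclPointHom L τ₀ g) := by
  intro x y hxy
  rw [dsclPointHom_apply, dsclPointHom_apply] at hxy
  have h1 := taylorDisc_injective τ₀ (HahnSeries.ofPowerSeries_injective hxy)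
  exact dscl_toHol_injective L (MulAction.injective g h1)

/-- Taylor expansion at `τ₀` of the conjugate by `g`, on the whole function field. -/
def dsclPointEmb (τ₀ : ℍ) (g : SL(2, ℤ)) : L.F →+* LaurentSeries ℂ :=
  dsclLiftF L (dsclPointHom L τ₀ g) (dsclPointHom_injective L τ₀ g)

theorem dsclPointEmb_coe (τ₀ : ℍ) (g : SL(2, ℤ)) (x : L.R) :
    dsclPointEmb L τ₀ g (x : L.F) =
      HahnSeries.ofPowerSeries ℤ ℂ (taylorDisc τ₀ (g • L.toHol x)) :=
  dsclLiftF_apply L _ _ x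

/-- Two ring homs on the function field which agree on `L.R` are equal. -/
theorem dscl_ringHom_ext_of_R {E : Type*} [Field E] (φ ψ : L.F →+* E)
    (h : ∀ x : L.R, φ (x : L.F) = ψ (x : L.F)) :
    φ = ψ := by
  have := L.frac
  apply IsLocalization.ringHom_ext (nonZeroDivisors (L.R))
  ext x
  exact h x

theorem dsclPointEmb_algebraMap (τ₀ : ℍ) (g : SL(2, ℤ)) (c : K) :
    dsclPointEmb L τ₀ g (algebraMap K (L.F) c) =
      HahnSeries.C (ι c) := by
  have h1 : algebraMap K (L.F) c =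
      ((algebraMap K (L.R) c : L.R) : L.F) := rfl
  rw [h1, dsclPointEmb_coe, dscl_toHol_algebraMap, embPoint_smul_C, ← HolRing.algebraMap_eq,
    taylorDisc_algebraMap, HahnSeries.ofPowerSeries_C]

theorem dsclPointEmb_jF (τ₀ : ℍ) (g : SL(2, ℤ)) :
    dsclPointEmb L τ₀ g (L.jF) = HahnSeries.ofPowerSeries ℤ ℂ (taylorDisc τ₀ jHol) := by
  have h1 : L.jF = ((L.jR : L.R) : L.F) := rfl
  rw [h1, dsclPointEmb_coe, dscl_toHol_jR, jHol_smul]

theorem dsclPointEmb_jF_sub (τ₀ : ℍ) (g : SL(2, ℤ)) (a : K) :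
    dsclPointEmb L τ₀ g (L.jF - algebraMap K (L.F) a) =
      HahnSeries.ofPowerSeries ℤ ℂ (taylorDisc τ₀ (jHol - HolRing.C (ι a))) := by
  rw [map_sub, dsclPointEmb_jF, dsclPointEmb_algebraMap, map_sub, map_sub, ← HolRing.algebraMap_eq,
    taylorDisc_algebraMap, HahnSeries.ofPowerSeries_C]

theorem dscl_order_pointEmb_jF_sub (τ₀ : ℍ) (g : SL(2, ℤ)) (a : K) (hτ₀ : jFun τ₀ = ι a)
    (e : ℕ)
    (he : analyticOrderAt (fun z : ℂ => jFun (ofComplex z) - jFun τ₀) (τ₀ : ℂ) = e) :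
    (dsclPointEmb L τ₀ g (L.jF - algebraMap K (L.F) a)).order = (e : ℤ) := by
  rw [dsclPointEmb_jF_sub]
  apply order_ofPowerSeries_of_order_eq
  rw [order_taylorDisc, ← he, hτ₀]
  rfl

/-- Representatives: the chosen representative of `γ • q` is `γ * q.out` up to `Γ₀(L)`. -/
theorem dscl_exists_out_smul_eq (γ : SL(2, ℤ)) (q : SL(2, ℤ) ⧸ L.Γ) :
    ∃ h ∈ L.Γ, (γ • q).out = γ * q.out * h := by
  have h1 : (((γ • q).out : SL(2, ℤ)) : SL(2, ℤ) ⧸ L.Γ) = γ • q :=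
    QuotientGroup.out_eq' _
  have h2 : γ • q = ((γ * q.out : SL(2, ℤ)) : SL(2, ℤ) ⧸ L.Γ) := by
    conv_lhs => rw [← QuotientGroup.out_eq' q]
    rfl
  have h3 := QuotientGroup.eq.mp (h2.symm.trans h1.symm)
  refine ⟨(γ * q.out)⁻¹ * (γ • q).out, h3, ?_⟩
  group

/-- `dsclPointEmb` depends only on the left coset. -/
theorem dsclPointEmb_mul_of_mem (τ₀ : ℍ) (g h : SL(2, ℤ))
    (hh : h ∈ L.Γ) : dsclPointEmb L τ₀ (g * h) = dsclPointEmb L τ₀ g := by
  apply dscl_ringHom_ext_of_R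
  intro x
  rw [dsclPointEmb_coe, dsclPointEmb_coe, mul_smul, L.inv h hh]

/-- Rotation of the Taylor expansion = translation of the coset by the stabiliser. -/
theorem dscl_rotLaurent_pointEmb (τ₀ : ℍ) (γ₀ : SL(2, ℤ)) (hγ₀ : γ₀ • τ₀ = τ₀) (ζ : ℂˣ)
    (hζ : (ζ : ℂ) = rotFactor γ₀ τ₀) (g : SL(2, ℤ)) (f : L.F) :
    rotLaurent ζ (dsclPointEmb L τ₀ g f) = dsclPointEmb L τ₀ (γ₀⁻¹ * g) f := by
  have key : (rotLaurent ζ).comp (dsclPointEmb L τ₀ g) = dsclPointEmb L τ₀ (γ₀⁻¹ * g) := by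
    apply dscl_ringHom_ext_of_R
    intro x
    rw [RingHom.comp_apply, dsclPointEmb_coe, dsclPointEmb_coe, rotLaurent_ofPowerSeries, hζ,
      ← taylorDisc_inv_smul τ₀ γ₀ hγ₀, mul_smul]
  exact congrArg (fun φ => φ f) key

/-- Distinct cosets give distinct Taylor expansions. -/
theorem dscl_mem_of_pointEmb_eq (τ₀ : ℍ) (g g' : SL(2, ℤ))
    (h : dsclPointEmb L τ₀ g = dsclPointEmb L τ₀ g') : g'⁻¹ * g ∈ L.Γ := by
  apply L.sep
  intro x
  have h1 : dsclPointEmb L τ₀ g (x : L.F) =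
      dsclPointEmb L τ₀ g' (x : L.F) := by rw [h]
  rw [dsclPointEmb_coe, dsclPointEmb_coe] at h1
  have h2 := taylorDisc_injective τ₀ (HahnSeries.ofPowerSeries_injective h1)
  rw [mul_smul, h2, inv_smul_smul]

theorem dsclPointEmb_out_injective (τ₀ : ℍ) :
    Function.Injective (fun q : SL(2, ℤ) ⧸ L.Γ =>
      dsclPointEmb L τ₀ q.out) := by
  intro q q' h
  have h1 := dscl_mem_of_pointEmb_eq L τ₀ q.out q'.out h
  have h2 : ((q'.out : SL(2, ℤ)) : SL(2, ℤ) ⧸ L.Γ) =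
      ((q.out : SL(2, ℤ)) : SL(2, ℤ) ⧸ L.Γ) := QuotientGroup.eq.mpr h1
  rw [QuotientGroup.out_eq', QuotientGroup.out_eq'] at h2
  exact h2.symm

/-- Number of places over `j = a`. -/
theorem dscl_card_places_of_point (a : K) (τ₀ : ℍ) (hτ₀ : jFun τ₀ = ι a)
    (γ₀ : SL(2, ℤ)) (hγ₀ : γ₀ • τ₀ = τ₀) (e : ℕ)
    (he : analyticOrderAt (fun z : ℂ => jFun (ofComplex z) - jFun τ₀) (τ₀ : ℂ) = e)
    (hζ : IsPrimitiveRoot (rotFactor γ₀ τ₀) e) :
    Nat.card {v : Place K (L.F) //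
        0 < v.ord (L.jF - algebraMap K (L.F) a)} =
      Nat.card (MulAction.orbitRel.Quotient (Subgroup.zpowers γ₀)
        (SL(2, ℤ) ⧸ L.Γ)) := by
  have hfin : Finite (SL(2, ℤ) ⧸ L.Γ) := (inferInstance : Finite (SL(2, ℤ) ⧸ L.Γ))
  let _inst : Fintype (SL(2, ℤ) ⧸ L.Γ) := Fintype.ofFinite _
  have hepos : 0 < e := pos_of_analyticOrderAt_jFun_sub τ₀ e he
  have hζ0 : rotFactor γ₀ τ₀ ≠ 0 := hζ.ne_zero hepos.ne'
  set ζ : ℂˣ := Units.mk0 (rotFactor γ₀ τ₀) hζ0 with hζdef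
  have hζval : (ζ : ℂ) = rotFactor γ₀ τ₀ := rfl
  have ht : IsSepGen K (L.jF - algebraMap K (L.F) a) :=
    (dscl_isSepGen_jF L).sub_algebraMap a
  refine Eq.trans ?_
    (card_orbits_toPerm_inv (α := SL(2, ℤ) ⧸ L.Γ) γ₀)
  apply card_places_eq_card_orbits_of_embeddings ht
    (fun q : SL(2, ℤ) ⧸ L.Γ => dsclPointEmb L τ₀ q.out)
    (dsclPointEmb_out_injective L τ₀) _ _ _ _ e hepos _ (rotFactor γ₀ τ₀) hζ (rotLaurent ζ) _
    (MulAction.toPerm γ₀⁻¹)
  · -- hσ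
    intro q f
    rw [dscl_rotLaurent_pointEmb L τ₀ γ₀ hγ₀ ζ hζval]
    obtain ⟨h, hh, hout⟩ := dscl_exists_out_smul_eq L γ₀⁻¹ q
    show _ = dsclPointEmb L τ₀ (γ₀⁻¹ • q).out f
    rw [hout, dsclPointEmb_mul_of_mem L τ₀ _ h hh]
  · -- hcard
    rw [(dscl_isSepGen_jF L).finrank_sub_algebraMap a, dscl_finrank_jF, Fintype.card_eq_nat_card]
  · -- hK
    intro i j c
    rw [dsclPointEmb_algebraMap, dsclPointEmb_algebraMap]
  · -- hKord
    intro i c hc
    rw [dsclPointEmb_algebraMap, HahnSeries.C_apply]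
    apply HahnSeries.order_single
    intro h0
    exact hc (ι.injective (by rw [h0, map_zero]))
  · -- ht'
    intro i j
    rw [dsclPointEmb_jF_sub, dsclPointEmb_jF_sub]
  · -- hord
    intro i
    exact dscl_order_pointEmb_jF_sub L τ₀ _ a hτ₀ e he
  · -- hR
    intro f m
    rw [rotLaurent_coeff, hζval]


end Fermat.Agent.DS
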