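import Mathlib
import Fermat.Agent.S18.RH.R
import Fermat.Agent.DS.C.Lv.EmbPoint

/-!
# Program DS, package (C), rows C2/C4 — generic level datum: RAMIFICATION of `L.F / K(j)`

Generic port of `S18/RH/R.lean` (helper1) to a level datum `L : DscLevel K ι` (helper17,
`DS/C/Lv/*`): every place `v` of `L.F` over `j = a` is one of the places attached to the Taylor
embeddings `dsclPointEmb L τ₀ g`, and `ord_v (j - a)` divides the order `e` of `j - a` at `τ₀`
(`e = 3, 2, 1` for `a = 0, 1728`, other); every place over `j = ∞` is attached to a cusp embedding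
`dsclCuspEmb L g` and `ord_v j` divides the common cusp width `L.h`.
These are the inputs (R-0), (R-1728), (R-generic), (R-cusp) of the S18′ core claim (row C4).
-/

set_option autoImplicit false
set_option linter.unusedSectionVars false

noncomputable section

namespace Fermat.Agent.DS

open Fermat.Agent.S24 Fermat.Agent.S18 AlgebraicCurve ModularCurve UpperHalfPlane
open scoped MatrixGroups Manifold ModularForm Real

variable {K : Type} [Field K] [Algebra ℚ K] [IsAlgClosed K] {ι : K →+* ℂ} (L : DscLevel K ι)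

/-- Ramification index of a place over `j = a` divides the order `e` of `j - a` at `τ₀`. -/
theorem dscl_ord_dvd_of_point (a : K) (τ₀ : ℍ) (hτ₀ : jFun τ₀ = ι a)
    (γ₀ : SL(2, ℤ)) (hγ₀ : γ₀ • τ₀ = τ₀) (e : ℕ)
    (he : analyticOrderAt (fun z : ℂ => jFun (ofComplex z) - jFun τ₀) (τ₀ : ℂ) = e)
    (hζ : IsPrimitiveRoot (rotFactor γ₀ τ₀) e)
    (v : Place K L.F)
    (hv : 0 < v.ord (L.jF - algebraMap K L.F a)) :
    v.ord (L.jF - algebraMap K L.F a) ∣ (e : ℤ) := by
  have hfin : Finite (SL(2, ℤ) ⧸ L.Γ) := (inferInstance : Finite (SL(2, ℤ) ⧸ L.Γ))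
  let _inst : Fintype (SL(2, ℤ) ⧸ L.Γ) := Fintype.ofFinite _
  have hepos : 0 < e := pos_of_analyticOrderAt_jFun_sub τ₀ e he
  have hζ0 : rotFactor γ₀ τ₀ ≠ 0 := hζ.ne_zero hepos.ne'
  set ζ : ℂˣ := Units.mk0 (rotFactor γ₀ τ₀) hζ0 with hζdef
  have hζval : (ζ : ℂ) = rotFactor γ₀ τ₀ := rfl
  have ht : IsSepGen K (L.jF - algebraMap K L.F a) :=
    (dscl_isSepGen_jF L).sub_algebraMap a
  obtain ⟨κ, hm, -, hsurj, -⟩ := exists_places_of_embeddings ht
    (fun q : SL(2, ℤ) ⧸ L.Γ => dsclPointEmb L τ₀ q.out)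
    (dsclPointEmb_out_injective L τ₀)
    (by rw [(dscl_isSepGen_jF L).finrank_sub_algebraMap a, dscl_finrank_jF, Fintype.card_eq_nat_card])
    (fun i j c => by rw [dsclPointEmb_algebraMap, dsclPointEmb_algebraMap])
    (fun i c hc => by
      rw [dsclPointEmb_algebraMap, HahnSeries.C_apply]
      apply HahnSeries.order_single
      intro h0
      exact hc (ι.injective (by rw [h0, map_zero])))
    (fun i j => by rw [dsclPointEmb_jF_sub, dsclPointEmb_jF_sub])
    e hepos (fun i => dscl_order_pointEmb_jF_sub L τ₀ _ a hτ₀ e he)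
    (rotFactor γ₀ τ₀) hζ (rotLaurent ζ) (fun f m => by rw [rotLaurent_coeff, hζval])
    (MulAction.toPerm γ₀⁻¹)
    (by
      intro q f
      rw [dscl_rotLaurent_pointEmb L τ₀ γ₀ hγ₀ ζ hζval]
      obtain ⟨h, hh, hout⟩ := dscl_exists_out_smul_eq L γ₀⁻¹ q
      show _ = dsclPointEmb L τ₀ (γ₀⁻¹ • q).out f
      rw [hout, dsclPointEmb_mul_of_mem L τ₀ _ h hh])
  exact s18rr_dvd_of_kappa _ e κ hm hsurj v hv

/-- (R-0) the ramification index of a place of `L.F` over `j = 0` divides `3`. -/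
theorem dscl_ord_dvd_zero (v : Place K L.F)
    (hv : 0 < v.ord (L.jF)) : v.ord (L.jF) ∣ (3 : ℤ) := by
  have hτ : jFun ρ = ι 0 := by rw [jFun_ρ, map_zero]
  have h0 : L.jF - algebraMap K L.F 0 = L.jF := by
    rw [map_zero, sub_zero]
  have key := dscl_ord_dvd_of_point L 0 ρ hτ (ModularGroup.S * ModularGroup.T) ST_smul_ρ 3
    (by rw [analyticOrderAt_jFun_sub, if_pos jFun_ρ]; rfl)
    (isPrimitiveRoot_rotFactor_ST ρ ST_smul_ρ) v (by rw [h0]; exact hv)
  rw [h0] at key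
  exact_mod_cast key

/-- (R-1728) the ramification index of a place of `L.F` over `j = 1728` divides `2`. -/
theorem dscl_ord_dvd_1728 (v : Place K L.F)
    (hv : 0 < v.ord (L.jF - algebraMap K L.F 1728)) :
    v.ord (L.jF - algebraMap K L.F 1728) ∣ (2 : ℤ) := by
  have hτ : jFun UpperHalfPlane.I = ι 1728 := by rw [jFun_I, map_ofNat]
  have hζ : IsPrimitiveRoot (rotFactor ModularGroup.S UpperHalfPlane.I) 2 := by
    rw [rotFactor_S _ S_smul_I]
    exact IsPrimitiveRoot.neg_one 0 (by norm_num)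
  have h0 : jFun UpperHalfPlane.I ≠ 0 := by rw [jFun_I]; norm_num
  have key := dscl_ord_dvd_of_point L 1728 UpperHalfPlane.I hτ ModularGroup.S S_smul_I 2
    (by rw [analyticOrderAt_jFun_sub, if_neg h0, if_pos jFun_I]; rfl) hζ v hv
  exact_mod_cast key

/-- (R-generic) `L.F / K(j)` is unramified over `j = a`, `a ≠ 0, 1728`. -/
theorem dscl_ord_eq_one (a : K) (ha0 : a ≠ 0) (ha : a ≠ 1728)
    (v : Place K L.F)
    (hv : 0 < v.ord (L.jF - algebraMap K L.F a)) :
    v.ord (L.jF - algebraMap K L.F a) = 1 := by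
  obtain ⟨τ₀, hτ⟩ := jFun_surjective (ι a)
  have h0 : jFun τ₀ ≠ 0 := by
    rw [hτ]
    exact fun h => ha0 (ι.injective (by rw [h, map_zero]))
  have h1 : jFun τ₀ ≠ 1728 := by
    rw [hτ]
    exact fun h => ha (ι.injective (by rw [h, map_ofNat]))
  have hζ : IsPrimitiveRoot (rotFactor 1 τ₀) 1 := by
    rw [rotFactor_one]
    exact IsPrimitiveRoot.one
  have key := dscl_ord_dvd_of_point L a τ₀ hτ 1 (one_smul _ _) 1
    (by rw [analyticOrderAt_jFun_sub, if_neg h0, if_neg h1]; rfl) hζ v hv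
  have h2 : v.ord (L.jF - algebraMap K L.F a) ∣ (1 : ℤ) := by
    exact_mod_cast key
  exact Int.eq_one_of_dvd_one hv.le h2

/-- (R-cusp) the ramification index of a place of `L.F` over `j = ∞` divides `N`. -/
theorem dscl_ord_dvd_cusp (v : Place K L.F)
    (hv : v.ord (L.jF) < 0) : v.ord (L.jF) ∣ (L.h : ℤ) := by
  classical
  have : Finite (SL(2, ℤ) ⧸ L.Γ) := (inferInstance : Finite (SL(2, ℤ) ⧸ L.Γ))
  let _ : Fintype (SL(2, ℤ) ⧸ L.Γ) := Fintype.ofFinite _
  have ht : IsSepGen K (L.jF)⁻¹ := (dscl_isSepGen_jF L).inv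
  obtain ⟨ζ, hζ⟩ : ∃ ζ : ℂˣ, (ζ : ℂ) = Complex.exp (2 * π * Complex.I / L.h) :=
    ⟨Units.mk0 _ (Complex.exp_ne_zero _), rfl⟩
  have hζprim : IsPrimitiveRoot (ζ : ℂ) L.h := by
    rw [hζ]
    exact Complex.isPrimitiveRoot_exp L.h (NeZero.ne L.h)
  have hout : ∀ (g : SL(2, ℤ)),
      dsclCuspEmb L (QuotientGroup.mk g : SL(2, ℤ) ⧸ L.Γ).out =
        dsclCuspEmb L g := by
    intro g
    obtain ⟨γ, hγ⟩ := QuotientGroup.mk_out_eq_mul (L.Γ) g
    rw [hγ]
    exact dsclCuspEmb_mul_of_mem L g γ γ.2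
  obtain ⟨κ, hm, -, hsurj, -⟩ := exists_places_of_embeddings ht
    (ι := SL(2, ℤ) ⧸ L.Γ) (fun q => dsclCuspEmb L q.out)
    (by
      intro q q' h
      have h1 := dscl_mem_of_cuspEmb_eq L q.out q'.out h
      have h2 : (QuotientGroup.mk q.out : SL(2, ℤ) ⧸ L.Γ) =
          QuotientGroup.mk q'.out := QuotientGroup.eq.mpr h1
      rwa [QuotientGroup.out_eq', QuotientGroup.out_eq'] at h2)
    (by
      rw [(dscl_isSepGen_jF L).finrank_inv, dscl_finrank_jF, Nat.card_eq_fintype_card])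
    (fun i j c => by rw [dsclCuspEmb_algebraMap, dsclCuspEmb_algebraMap])
    (fun i c hc => by
      rw [dsclCuspEmb_algebraMap, HahnSeries.C_apply]
      exact HahnSeries.order_single (fun h => hc (ι.injective (by rw [h, map_zero]))))
    (fun i j => by rw [map_inv₀, map_inv₀, dsclCuspEmb_jF, dsclCuspEmb_jF])
    L.h (NeZero.pos L.h) (fun i => dsclCuspEmb_jF_inv_order L _)
    (ζ : ℂ) hζprim (rotLaurent ζ) (rotLaurent_coeff ζ)
    (MulAction.toPerm (ModularGroup.T⁻¹ : SL(2, ℤ)))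
    (by
      intro q f
      rw [dsclCuspEmb_T_inv_mul L _ ζ hζ]
      have h1 : (MulAction.toPerm (ModularGroup.T⁻¹ : SL(2, ℤ)) q :
          SL(2, ℤ) ⧸ L.Γ) =
          QuotientGroup.mk (ModularGroup.T⁻¹ * q.out) := by
        conv_lhs => rw [← QuotientGroup.out_eq' q]
        rfl
      rw [h1, hout])
  have hv' : 0 < v.ord (L.jF)⁻¹ := by rw [Place.ord_inv]; omega
  have key := s18rr_dvd_of_kappa _ L.h κ hm hsurj v hv'
  rw [Place.ord_inv, neg_dvd] at key
  exact key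

end Fermat.Agent.DS
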